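import Mathlib
import Fermat.Agent.S28.DeltaProd
import Fermat.Prelude.Def_ModularCurve_X0ModL

set_option autoImplicit false

/-!
# Leading terms of Laurent series over a field

`Lead f n c` : `f = q^n · u` with `u` a power series with constant coefficient `c`
(so `c` is the coefficient of `q^n` and all lower coefficients vanish; `c = 0` is allowed).
A small calculus for sums, products, inverses and the substitution `q ↦ q^M`.
-/

namespace Fermat.Agent.S18.Haupt

open ModularCurve HahnSeries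

noncomputable section

variable {k : Type*} [Field k]

/-- `f = q^n · u`, `u ∈ k[[q]]` with constant coefficient `c`. -/
def Lead (f : LaurentSeries k) (n : ℤ) (c : k) : Prop :=
  ∃ u : PowerSeries k, f = single n 1 * HahnSeries.ofPowerSeries ℤ k u ∧
    PowerSeries.constantCoeff u = c

theorem Lead.congr {f : LaurentSeries k} {n m : ℤ} {c d : k} (h : Lead f n c) (hn : n = m)
    (hc : c = d) : Lead f m d := by
  subst hn; subst hc; exact h

theorem Lead.mul {f g : LaurentSeries k} {n m : ℤ} {c d : k} (hf : Lead f n c)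
    (hg : Lead g m d) : Lead (f * g) (n + m) (c * d) := by
  obtain ⟨u, rfl, rfl⟩ := hf
  obtain ⟨v, rfl, rfl⟩ := hg
  refine ⟨u * v, ?_, by rw [map_mul]⟩
  have h : (single (n + m) (1 : k) : LaurentSeries k) = single n 1 * single m 1 := by
    rw [single_mul_single, one_mul]
  rw [h, map_mul]
  ring

theorem Lead.add {f g : LaurentSeries k} {n : ℤ} {c d : k} (hf : Lead f n c)
    (hg : Lead g n d) : Lead (f + g) n (c + d) := by
  obtain ⟨u, rfl, rfl⟩ := hf
  obtain ⟨v, rfl, rfl⟩ := hg
  exact ⟨u + v, by rw [map_add]; ring, by rw [map_add]⟩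

theorem Lead.neg {f : LaurentSeries k} {n : ℤ} {c : k} (hf : Lead f n c) : Lead (-f) n (-c) := by
  obtain ⟨u, rfl, rfl⟩ := hf
  exact ⟨-u, by rw [map_neg]; ring, by rw [map_neg]⟩

theorem Lead.sub {f g : LaurentSeries k} {n : ℤ} {c d : k} (hf : Lead f n c)
    (hg : Lead g n d) : Lead (f - g) n (c - d) := by
  rw [sub_eq_add_neg, sub_eq_add_neg]
  exact hf.add hg.neg

theorem lead_one : Lead (1 : LaurentSeries k) 0 1 :=
  ⟨1, by simp, by simp⟩

theorem lead_zero : Lead (0 : LaurentSeries k) 0 0 :=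
  ⟨0, by simp, by simp⟩

/-- the start of a Horner chain. -/
theorem lead_one_horner : Lead (1 : LaurentSeries k) (-((0 : ℕ) : ℤ)) 1 :=
  lead_one.congr (by simp) rfl

theorem Lead.pow {f : LaurentSeries k} {n : ℤ} {c : k} (hf : Lead f n c) (r : ℕ) :
    Lead (f ^ r) (r * n) (c ^ r) := by
  induction r with
  | zero => simpa using (lead_one (k := k))
  | succ r ih =>
    rw [pow_succ]
    exact (ih.mul hf).congr (by push_cast; ring) (by ring)

/-- weakening: below the leading exponent the coefficient is zero. -/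
theorem Lead.shift {f : LaurentSeries k} {n : ℤ} {c : k} (hf : Lead f n c) {m : ℤ}
    (hm : m < n) : Lead f m 0 := by
  obtain ⟨u, rfl, rfl⟩ := hf
  obtain ⟨r, hr⟩ : ∃ r : ℕ, n - m = (r : ℤ) + 1 := ⟨(n - m - 1).toNat, by omega⟩
  refine ⟨PowerSeries.X ^ (r + 1) * u, ?_, by simp⟩
  have h : (single n (1 : k) : LaurentSeries k) = single m 1 * single (1 : ℤ) 1 ^ (r + 1) := by
    have e : n = m + (r + 1) • (1 : ℤ) := by
      rw [nsmul_eq_mul]
      push_cast
      omega
    rw [single_pow, single_mul_single, one_pow, one_mul, ← e]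
  rw [h, map_mul, map_pow, HahnSeries.ofPowerSeries_X]
  ring

theorem lead_C (c : k) : Lead (HahnSeries.C c : LaurentSeries k) 0 c :=
  ⟨PowerSeries.C c, by rw [HahnSeries.ofPowerSeries_C]; simp, by simp⟩

theorem lead_natCast (a : ℕ) : Lead ((a : ℕ) : LaurentSeries k) 0 (a : k) := by
  have h : ((a : ℕ) : LaurentSeries k) = HahnSeries.C (a : k) := (map_natCast _ a).symm
  rw [h]
  exact lead_C _

theorem lead_ofNat (a : ℕ) [a.AtLeastTwo] :
    Lead (OfNat.ofNat a : LaurentSeries k) 0 (OfNat.ofNat a : k) := by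
  have h : (OfNat.ofNat a : LaurentSeries k) = HahnSeries.C (OfNat.ofNat a : k) :=
    (map_ofNat _ a).symm
  rw [h]
  exact lead_C _

theorem Lead.ne_zero {f : LaurentSeries k} {n : ℤ} {c : k} (hf : Lead f n c) (hc : c ≠ 0) :
    f ≠ 0 := by
  obtain ⟨u, rfl, rfl⟩ := hf
  refine mul_ne_zero (single_ne_zero one_ne_zero) ?_
  intro h
  have h0 : u = 0 := HahnSeries.ofPowerSeries_injective (by rw [h, map_zero])
  rw [h0, map_zero] at hc
  exact hc rfl

theorem Lead.inv {f : LaurentSeries k} {n : ℤ} {c : k} (hf : Lead f n c) (hc : c ≠ 0) :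
    Lead f⁻¹ (-n) c⁻¹ := by
  have hf0 := hf.ne_zero hc
  obtain ⟨u, rfl, rfl⟩ := hf
  refine ⟨u⁻¹, ?_, PowerSeries.constantCoeff_inv u⟩
  refine inv_eq_of_mul_eq_one_right ?_
  have h1 : u * u⁻¹ = 1 := PowerSeries.mul_inv_cancel u hc
  calc single n (1 : k) * HahnSeries.ofPowerSeries ℤ k u *
        (single (-n) 1 * HahnSeries.ofPowerSeries ℤ k u⁻¹)
      = (single n (1 : k) * single (-n) 1) * HahnSeries.ofPowerSeries ℤ k (u * u⁻¹) := by
        rw [map_mul]; ring
    _ = 1 := by
        rw [h1, (HahnSeries.ofPowerSeries ℤ k).map_one, mul_one, single_mul_single, add_neg_cancel,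
          one_mul]
        rfl

theorem Lead.div {f g : LaurentSeries k} {n m : ℤ} {c d : k} (hf : Lead f n c)
    (hg : Lead g m d) (hd : d ≠ 0) : Lead (f / g) (n - m) (c / d) := by
  rw [div_eq_mul_inv, div_eq_mul_inv, sub_eq_add_neg]
  exact hf.mul (hg.inv hd)

/-- adding a term of higher order. -/
theorem Lead.add_of_lt {f g : LaurentSeries k} {n m : ℤ} {c d : k} (hf : Lead f n c)
    (hg : Lead g m d) (h : n < m) : Lead (f + g) n c := by
  have := hf.add (hg.shift h)
  rwa [add_zero] at this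

theorem Lead.sub_of_lt {f g : LaurentSeries k} {n m : ℤ} {c d : k} (hf : Lead f n c)
    (hg : Lead g m d) (h : n < m) : Lead (f - g) n c := by
  have := hf.sub (hg.shift h)
  rwa [sub_zero] at this

theorem Lead.coeff_eq {f : LaurentSeries k} {n : ℤ} {c : k} (hf : Lead f n c) :
    f.coeff n = c := by
  obtain ⟨u, rfl, rfl⟩ := hf
  have h := coeff_single_mul_add (r := (1 : k)) (x := HahnSeries.ofPowerSeries ℤ k u)
    (a := 0) (b := n)
  rw [zero_add, one_mul] at h
  rw [h, show (0 : ℤ) = ((0 : ℕ) : ℤ) from rfl, HahnSeries.ofPowerSeries_apply_coeff,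
    PowerSeries.coeff_zero_eq_constantCoeff]

theorem Lead.coeff_of_lt {f : LaurentSeries k} {n : ℤ} {c : k} (hf : Lead f n c) {m : ℤ}
    (hm : m < n) : f.coeff m = 0 :=
  (hf.shift hm).coeff_eq

theorem Lead.orderTop_eq {f : LaurentSeries k} {n : ℤ} {c : k} (hf : Lead f n c) (hc : c ≠ 0) :
    f.orderTop = (n : WithTop ℤ) := by
  refine orderTop_eq_of_le ?_ ?_
  · rw [HahnSeries.mem_support, hf.coeff_eq]
    exact hc
  · intro m hm
    by_contra hlt
    rw [HahnSeries.mem_support] at hm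
    exact hm (hf.coeff_of_lt (not_le.mp hlt))

theorem Lead.leadingCoeff_eq {f : LaurentSeries k} {n : ℤ} {c : k} (hf : Lead f n c)
    (hc : c ≠ 0) : f.leadingCoeff = c := by
  have h0 := hf.ne_zero hc
  have h1 := hf.orderTop_eq hc
  rw [HahnSeries.leadingCoeff_eq]
  have h2 : f.order = n := by
    have h3 := HahnSeries.order_eq_orderTop_of_ne_zero h0
    rw [h1] at h3
    exact_mod_cast h3
  rw [h2, hf.coeff_eq]

/-- the substitution `q ↦ q^M`. -/
theorem Lead.qExpand {f : LaurentSeries k} {n : ℤ} {c : k} (hf : Lead f n c) (M : ℕ)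
    [NeZero M] : Lead (qExpand k M f) (M * n) c := by
  obtain ⟨u, rfl, rfl⟩ := hf
  refine ⟨PowerSeries.expand M (NeZero.ne M) u, ?_, PowerSeries.constantCoeff_expand _ _ _⟩
  rw [map_mul, qExpand_single, ← Fermat.Agent.S28.DeltaProd.expand_eq_qExpand',
    Fermat.Agent.S28.DeltaProd.expand_ofPowerSeries M (NeZero.ne M)]

/-- Horner step: `a + x · g` for `x = q⁻¹ + …` and a constant `a`. -/
theorem Lead.horner {x g a : LaurentSeries k} {m : ℕ} {c a' : k} (hx : Lead x (-1) 1)
    (hg : Lead g (-(m : ℤ)) c) (ha : Lead a 0 a') :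
    Lead (a + x * g) (-((m + 1 : ℕ) : ℤ)) c := by
  have h1 : Lead (x * g) (-((m + 1 : ℕ) : ℤ)) c :=
    (hx.mul hg).congr (by push_cast; ring) (by ring)
  have h2 : Lead a (-((m + 1 : ℕ) : ℤ)) 0 := ha.shift (by push_cast; omega)
  have := h2.add h1
  rwa [zero_add] at this

end

end Fermat.Agent.S18.Haupt
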