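import Mathlib
import Fermat.Agent.S18.M11.Ident
import Fermat.Prelude.Def_ModularCurve_X0ModL

set_option autoImplicit false

/-!
# The Hauptmoduln of level 2 and 3 as formal `q`-series

`h2 R, h3 R : LaurentSeries R` for every commutative ring `R`, both of the form `q⁻¹ · (unit)`,
with

* `jqModC R * h2 ^ 2 = (h2 + 256) ^ 3`, `jqNModC R 2 * h2 = (h2 + 16) ^ 3`;
* `jqModC R * h3 ^ 3 = (h3 + 27) * (h3 + 243) ^ 3`, `jqNModC R 3 * h3 = (h3 + 27) * (h3 + 3) ^ 3`.
-/

namespace Fermat.Agent.S18.Haupt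

open ModularCurve HahnSeries
open Fermat.Agent.S18.M11 (eisM deltaF deltaM eisM_def deltaF_def deltaM_def
  ident_two_a ident_two_b ident_three_a ident_three_b)

noncomputable section

/-- `Σ σ₃(n) Xⁿ`. -/
def sig3 : PowerSeries ℤ :=
  PowerSeries.mk fun n => if n = 0 then 0 else ∑ d ∈ n.divisors, (d : ℤ) ^ 3

theorem coeff_sig3 (n : ℕ) :
    PowerSeries.coeff n sig3 = if n = 0 then 0 else ∑ d ∈ n.divisors, (d : ℤ) ^ 3 := by
  rw [sig3, PowerSeries.coeff_mk]

theorem eisenstein4_eq : eisenstein4 = 1 + 240 * sig3 := by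
  ext n
  have h240 : (240 : PowerSeries ℤ) = PowerSeries.C (240 : ℤ) := (map_ofNat _ 240).symm
  rw [map_add, h240, PowerSeries.coeff_C_mul, coeff_sig3, PowerSeries.coeff_one, eisenstein4,
    PowerSeries.coeff_mk]
  split_ifs <;> simp

/-- `Σ σ₃(n) X^(M n)`. -/
def sigM (M : ℕ) [NeZero M] : PowerSeries ℤ := PowerSeries.expand M (NeZero.ne M) sig3

theorem eisM_eq (M : ℕ) [NeZero M] : eisM M = 1 + 240 * sigM M := by
  rw [eisM_def, eisenstein4_eq, map_add, map_one, map_mul, map_ofNat, sigM]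

/-- `U = (E₄(q) - E₄(q^M)) / 240`. -/
def U (M : ℕ) [NeZero M] : PowerSeries ℤ := sig3 - sigM M

/-- `V = (16 E₄(q²) - E₄(q)) / 15`. -/
def V2 : PowerSeries ℤ := 1 + 256 * sigM 2 - 16 * sig3

/-- `V = (81 E₄(q³) - E₄(q)) / 80`. -/
def V3 : PowerSeries ℤ := 1 + 243 * sigM 3 - 3 * sig3

/-- `W = (E₄(q) + 9 E₄(q³)) / 10`. -/
def W3 : PowerSeries ℤ := 1 + 24 * sig3 + 216 * sigM 3

theorem eis_eq_two : eisenstein4 = V2 + 256 * U 2 := by
  rw [eisenstein4_eq, V2, U]; ring

theorem eisM_eq_two : eisM 2 = V2 + 16 * U 2 := by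
  rw [eisM_eq, V2, U]; ring

theorem eis_eq_three : eisenstein4 = V3 + 243 * U 3 := by
  rw [eisenstein4_eq, V3, U]; ring

theorem eisM_eq_three : eisM 3 = V3 + 3 * U 3 := by
  rw [eisM_eq, V3, U]; ring

theorem W3_eq : W3 = V3 + 27 * U 3 := by
  rw [W3, V3, U]; ring

theorem natCast_ne_zero_ps {n : ℕ} (hn : n ≠ 0) : ((n : ℕ) : PowerSeries ℤ) ≠ 0 := fun h => by
  have := congrArg (PowerSeries.constantCoeff (R := ℤ)) h
  rw [map_natCast, map_zero] at this
  exact hn (by exact_mod_cast this)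

/-- `V² U = Δ(q)` (level 2). -/
theorem V2_sq_mul_U : V2 ^ 2 * U 2 = deltaF := by
  have h := ident_two_a
  rw [eisM_eq_two, eis_eq_two] at h
  have h2 : (54000 : PowerSeries ℤ) * (V2 ^ 2 * U 2) = 54000 * deltaF := by
    linear_combination h
  exact mul_left_cancel₀ (by exact_mod_cast natCast_ne_zero_ps (n := 54000) (by norm_num)) h2

/-- `V U² = Δ(q²)` (level 2). -/
theorem V2_mul_U_sq : V2 * U 2 ^ 2 = deltaM 2 := by
  have h := ident_two_b
  rw [eisM_eq_two, eis_eq_two] at h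
  have h2 : (864000 : PowerSeries ℤ) * (V2 * U 2 ^ 2) = 864000 * deltaM 2 := by
    linear_combination h
  exact mul_left_cancel₀ (by exact_mod_cast natCast_ne_zero_ps (n := 864000) (by norm_num)) h2

/-- `V³ U = W Δ(q)` (level 3). -/
theorem V3_cube_mul_U : V3 ^ 3 * U 3 = W3 * deltaF := by
  have h := ident_three_a
  rw [eisM_eq_three, eis_eq_three] at h
  have h2 : (122880000 : PowerSeries ℤ) * (V3 ^ 3 * U 3) = 122880000 * (W3 * deltaF) := by
    rw [W3_eq]
    linear_combination h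
  exact mul_left_cancel₀ (by exact_mod_cast natCast_ne_zero_ps (n := 122880000) (by norm_num)) h2

/-- `V U³ = W Δ(q³)` (level 3). -/
theorem V3_mul_U_cube : V3 * U 3 ^ 3 = W3 * deltaM 3 := by
  have h := ident_three_b
  rw [eisM_eq_three, eis_eq_three] at h
  have h2 : (1105920000 : PowerSeries ℤ) * (V3 * U 3 ^ 3) = 1105920000 * (W3 * deltaM 3) := by
    rw [W3_eq]
    linear_combination h
  exact mul_left_cancel₀ (by exact_mod_cast natCast_ne_zero_ps (n := 1105920000) (by norm_num)) h2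

/-! ### The unit part of `U` -/

/-- `U M = X * uPart M`. -/
def uPart (M : ℕ) [NeZero M] : PowerSeries ℤ :=
  PowerSeries.mk fun n => PowerSeries.coeff (n + 1) (U M)

theorem U_eq (M : ℕ) [NeZero M] : U M = PowerSeries.X * uPart M := by
  ext n
  cases n with
  | zero =>
    rw [PowerSeries.coeff_zero_X_mul, U, map_sub, coeff_sig3, sigM,
      PowerSeries.coeff_zero_eq_constantCoeff, PowerSeries.constantCoeff_expand,
      ← PowerSeries.coeff_zero_eq_constantCoeff, coeff_sig3]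
    simp
  | succ n => rw [PowerSeries.coeff_succ_X_mul, uPart, PowerSeries.coeff_mk]

theorem constantCoeff_uPart (M : ℕ) [NeZero M] (hM : 2 ≤ M) :
    PowerSeries.constantCoeff (uPart M) = 1 := by
  rw [← PowerSeries.coeff_zero_eq_constantCoeff, uPart, PowerSeries.coeff_mk, U, map_sub,
    coeff_sig3, sigM, PowerSeries.coeff_expand]
  have h1 : ¬ M ∣ 1 := fun h => by
    have := Nat.le_of_dvd one_pos h
    omega
  simp [h1]

/-! ### Laurent series over `ℤ` -/

/-- The inclusion `ℤ[[X]] → ℤ((X))`. -/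
abbrev ι : PowerSeries ℤ →+* LaurentSeries ℤ := HahnSeries.ofPowerSeries ℤ ℤ

theorem qinv_mul_q : (single (-1) (1 : ℤ) : LaurentSeries ℤ) * single 1 1 = 1 := by
  rw [single_mul_single]
  simp

theorem ι_X : ι PowerSeries.X = single 1 1 := HahnSeries.ofPowerSeries_X

theorem ι_injective : Function.Injective ι := HahnSeries.ofPowerSeries_injective

/-- `V / (X u)` as a Laurent series, for `u` with constant coefficient one. -/
def hauptZ (V u : PowerSeries ℤ) : LaurentSeries ℤ :=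
  single (-1) 1 * ι (V * PowerSeries.invOfUnit u 1)

theorem hauptZ_mul (V u : PowerSeries ℤ) (hu : PowerSeries.constantCoeff u = 1) :
    hauptZ V u * ι (PowerSeries.X * u) = ι V := by
  have h1 : u * PowerSeries.invOfUnit u 1 = 1 := PowerSeries.mul_invOfUnit u 1 (by simpa using hu)
  calc hauptZ V u * ι (PowerSeries.X * u)
      = (single (-1) (1 : ℤ) * single 1 1) * ι (V * (u * PowerSeries.invOfUnit u 1)) := by
        rw [hauptZ, map_mul, map_mul, map_mul, map_mul, ι_X]; ring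
    _ = ι V := by rw [qinv_mul_q, h1, mul_one, one_mul]

theorem jqModC_int : jqModC ℤ = single (-1) 1 * ι jNum := by
  rw [jqModC]
  congr 2

theorem jq_mul_delta : jqModC ℤ * ι deltaF = ι eisenstein4 ^ 3 := by
  have h1 : dedekindEtaUnit * dedekindEtaUnitInv = 1 := dedekindEtaUnit_mul_inv
  calc jqModC ℤ * ι deltaF
      = (single (-1) (1 : ℤ) * single 1 1) *
          ι (eisenstein4 ^ 3 * (dedekindEtaUnit * dedekindEtaUnitInv)) := by
        rw [jqModC_int, deltaF_def, jNum, map_mul, map_mul, map_mul, map_mul, ι_X]; ring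
    _ = ι eisenstein4 ^ 3 := by rw [qinv_mul_q, h1, mul_one, one_mul, map_pow]

theorem qExpand_ι (M : ℕ) [NeZero M] (f : PowerSeries ℤ) :
    qExpand ℤ M (ι f) = ι (PowerSeries.expand M (NeZero.ne M) f) := by
  rw [← Fermat.Agent.S28.DeltaProd.expand_eq_qExpand',
    Fermat.Agent.S28.DeltaProd.expand_ofPowerSeries M (NeZero.ne M)]

theorem jqN_mul_deltaM (M : ℕ) [NeZero M] : jqNModC ℤ M * ι (deltaM M) = ι (eisM M) ^ 3 := by
  have h := congrArg (qExpand ℤ M) jq_mul_delta
  rw [map_mul, map_pow, qExpand_ι, qExpand_ι] at h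
  exact h

theorem ι_U_ne_zero (M : ℕ) [NeZero M] (hM : 2 ≤ M) : ι (U M) ≠ 0 := by
  intro h
  have h0 : U M = 0 := ι_injective (by rw [h, map_zero])
  have h1 := constantCoeff_uPart M hM
  rw [← PowerSeries.coeff_zero_eq_constantCoeff, uPart, PowerSeries.coeff_mk, h0] at h1
  simp at h1

/-- The Hauptmodul of level 2 over `ℤ`. -/
def h2Z : LaurentSeries ℤ := hauptZ V2 (uPart 2)

/-- The Hauptmodul of level 3 over `ℤ`. -/
def h3Z : LaurentSeries ℤ := hauptZ V3 (uPart 3)

theorem h2Z_mul : h2Z * ι (U 2) = ι V2 := by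
  rw [h2Z, U_eq]
  exact hauptZ_mul _ _ (constantCoeff_uPart 2 le_rfl)

theorem h3Z_mul : h3Z * ι (U 3) = ι V3 := by
  rw [h3Z, U_eq]
  exact hauptZ_mul _ _ (constantCoeff_uPart 3 (by norm_num))

/-- `j · h² = (h + 256)³` over `ℤ`. -/
theorem h2Z_rel_a : jqModC ℤ * h2Z ^ 2 = (h2Z + 256) ^ 3 := by
  have e1 := jq_mul_delta
  have e2 := h2Z_mul
  have e3 := congrArg ι V2_sq_mul_U
  have e4 := congrArg ι eis_eq_two
  simp only [map_mul, map_pow, map_add, map_ofNat] at e3 e4
  rw [e4, ← e3, ← e2] at e1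
  refine mul_right_cancel₀ (pow_ne_zero 3 (ι_U_ne_zero 2 le_rfl)) ?_
  linear_combination e1

/-- `j(q²) · h = (h + 16)³` over `ℤ`. -/
theorem h2Z_rel_b : jqNModC ℤ 2 * h2Z = (h2Z + 16) ^ 3 := by
  have e1 := jqN_mul_deltaM 2
  have e2 := h2Z_mul
  have e3 := congrArg ι V2_mul_U_sq
  have e4 := congrArg ι eisM_eq_two
  simp only [map_mul, map_pow, map_add, map_ofNat] at e3 e4
  rw [e4, ← e3, ← e2] at e1
  refine mul_right_cancel₀ (pow_ne_zero 3 (ι_U_ne_zero 2 le_rfl)) ?_
  linear_combination e1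

/-- `j · h³ = (h + 27) (h + 243)³` over `ℤ`. -/
theorem h3Z_rel_a : jqModC ℤ * h3Z ^ 3 = (h3Z + 27) * (h3Z + 243) ^ 3 := by
  have e1 := jq_mul_delta
  have e2 := h3Z_mul
  have e3 := congrArg ι V3_cube_mul_U
  have e4 := congrArg ι eis_eq_three
  have e5 := congrArg ι W3_eq
  simp only [map_mul, map_pow, map_add, map_ofNat] at e3 e4 e5
  have key : jqModC ℤ * (ι V3 ^ 3 * ι (U 3)) = ι W3 * ι eisenstein4 ^ 3 := by
    rw [e3]; linear_combination (ι W3) * e1
  rw [e5, e4, ← e2] at key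
  refine mul_right_cancel₀ (pow_ne_zero 4 (ι_U_ne_zero 3 (by norm_num))) ?_
  linear_combination key

/-- `j(q³) · h = (h + 27) (h + 3)³` over `ℤ`. -/
theorem h3Z_rel_b : jqNModC ℤ 3 * h3Z = (h3Z + 27) * (h3Z + 3) ^ 3 := by
  have e1 := jqN_mul_deltaM 3
  have e2 := h3Z_mul
  have e3 := congrArg ι V3_mul_U_cube
  have e4 := congrArg ι eisM_eq_three
  have e5 := congrArg ι W3_eq
  simp only [map_mul, map_pow, map_add, map_ofNat] at e3 e4 e5
  have key : jqNModC ℤ 3 * (ι V3 * ι (U 3) ^ 3) = ι W3 * ι (eisM 3) ^ 3 := by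
    rw [e3]; linear_combination (ι W3) * e1
  rw [e5, e4, ← e2] at key
  refine mul_right_cancel₀ (pow_ne_zero 4 (ι_U_ne_zero 3 (by norm_num))) ?_
  linear_combination key

/-! ### Arbitrary coefficient rings -/

section Ring

variable (R : Type*) [CommRing R]

/-- The Hauptmodul of level 2 over `R`. -/
def h2 : LaurentSeries R := coeffMap (Int.castRingHom R) h2Z

/-- The Hauptmodul of level 3 over `R`. -/
def h3 : LaurentSeries R := coeffMap (Int.castRingHom R) h3Z

/-- `j · h₂² = (h₂ + 256)³`. -/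
theorem h2_rel_a : jqModC R * h2 R ^ 2 = (h2 R + 256) ^ 3 := by
  have h := congrArg (coeffMap (Int.castRingHom R)) h2Z_rel_a
  simpa only [map_mul, map_pow, map_add, map_ofNat, coeffMap_jqModC, h2] using h

/-- `j(q²) · h₂ = (h₂ + 16)³`. -/
theorem h2_rel_b : jqNModC R 2 * h2 R = (h2 R + 16) ^ 3 := by
  have h := congrArg (coeffMap (Int.castRingHom R)) h2Z_rel_b
  simpa only [map_mul, map_pow, map_add, map_ofNat, coeffMap_jqNModC, h2] using h

/-- `j · h₃³ = (h₃ + 27) (h₃ + 243)³`. -/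
theorem h3_rel_a : jqModC R * h3 R ^ 3 = (h3 R + 27) * (h3 R + 243) ^ 3 := by
  have h := congrArg (coeffMap (Int.castRingHom R)) h3Z_rel_a
  simpa only [map_mul, map_pow, map_add, map_ofNat, coeffMap_jqModC, h3] using h

/-- `j(q³) · h₃ = (h₃ + 27) (h₃ + 3)³`. -/
theorem h3_rel_b : jqNModC R 3 * h3 R = (h3 R + 27) * (h3 R + 3) ^ 3 := by
  have h := congrArg (coeffMap (Int.castRingHom R)) h3Z_rel_b
  simpa only [map_mul, map_pow, map_add, map_ofNat, coeffMap_jqNModC, h3] using h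

variable {R} in
theorem coeffMap_h2 {S : Type*} [CommRing S] (f : R →+* S) : coeffMap f (h2 R) = h2 S := by
  rw [h2, h2, coeffMap_coeffMap]
  exact coeffMap_congr (RingHom.ext_int _ _) _

variable {R} in
theorem coeffMap_h3 {S : Type*} [CommRing S] (f : R →+* S) : coeffMap f (h3 R) = h3 S := by
  rw [h3, h3, coeffMap_coeffMap]
  exact coeffMap_congr (RingHom.ext_int _ _) _

/-- The unit part of `h₂`: `h₂ = q⁻¹ · w₂`. -/
def w2Z : PowerSeries ℤ := V2 * PowerSeries.invOfUnit (uPart 2) 1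

/-- The unit part of `h₃`: `h₃ = q⁻¹ · w₃`. -/
def w3Z : PowerSeries ℤ := V3 * PowerSeries.invOfUnit (uPart 3) 1

theorem constantCoeff_V2 : PowerSeries.constantCoeff V2 = 1 := by
  rw [V2, map_sub, map_add, map_mul, map_mul, map_one, sigM, PowerSeries.constantCoeff_expand,
    ← PowerSeries.coeff_zero_eq_constantCoeff, coeff_sig3]
  simp

theorem constantCoeff_V3 : PowerSeries.constantCoeff V3 = 1 := by
  rw [V3, map_sub, map_add, map_mul, map_mul, map_one, sigM, PowerSeries.constantCoeff_expand,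
    ← PowerSeries.coeff_zero_eq_constantCoeff, coeff_sig3]
  simp

theorem constantCoeff_w2Z : PowerSeries.constantCoeff w2Z = 1 := by
  rw [w2Z, map_mul, constantCoeff_V2, PowerSeries.constantCoeff_invOfUnit]
  simp

theorem constantCoeff_w3Z : PowerSeries.constantCoeff w3Z = 1 := by
  rw [w3Z, map_mul, constantCoeff_V3, PowerSeries.constantCoeff_invOfUnit]
  simp

theorem h2_eq : h2 R = single (-1) 1 * HahnSeries.ofPowerSeries ℤ R (w2Z.map (Int.castRingHom R)) := by
  rw [h2, h2Z, hauptZ, map_mul, coeffMap_single, map_one, coeffMap_ofPowerSeries]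
  rfl

theorem h3_eq : h3 R = single (-1) 1 * HahnSeries.ofPowerSeries ℤ R (w3Z.map (Int.castRingHom R)) := by
  rw [h3, h3Z, hauptZ, map_mul, coeffMap_single, map_one, coeffMap_ofPowerSeries]
  rfl

end Ring

end

end Fermat.Agent.S18.Haupt
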