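import Mathlib
import Fermat.Agent.S18.Haupt.Level23
import Fermat.Agent.S18.Haupt.Lead

set_option autoImplicit false

/-!
# The Hauptmodul of level 9

Over a field `k`: with `x = h₃(q)`, `y = h₃(q³)`, the series
`t₉ = ((x² + 18 x + 27) y + 1458 x) / ((x + 9) y - 243 x + 729)`
(`= q⁻¹ - 3 + 5 q² - …`, the `q`-expansion of `η(τ)³/η(9τ)³`) satisfies, with
`s = t² + 9 t + 27`: `x s = t³`, `y = t s` and

* `j · t⁹ s = (t + 9)³ (t³ + 243 t² + 2187 t + 6561)³`,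
* `j(q³) · t³ s³ = (t + 9)³ (t³ + 3 t² + 27 t + 81)³`,
* `j(q⁹) · t s = (t + 3)³ (t³ + 9 t² + 27 t + 3)³`.

If `3 ≠ 0` in `k`, then `k(t₉) = k(j, j(q³), j(q⁹))`.
-/

namespace Fermat.Agent.S18.Haupt

open ModularCurve HahnSeries

noncomputable section

variable (k : Type*) [Field k]

theorem lead_h3 : Lead (h3 k) (-1) 1 :=
  ⟨_, h3_eq k, by
    rw [← PowerSeries.coeff_zero_eq_constantCoeff, PowerSeries.coeff_map,
      PowerSeries.coeff_zero_eq_constantCoeff, constantCoeff_w3Z]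
    simp⟩

/-- `h₃(q³)`. -/
def y9 : LaurentSeries k := qExpand k 3 (h3 k)

theorem lead_y9 : Lead (y9 k) (-3) 1 :=
  ((lead_h3 k).qExpand 3).congr (by norm_num) rfl

theorem y9_rel_a : jqNModC k 3 * y9 k ^ 3 = (y9 k + 27) * (y9 k + 243) ^ 3 := by
  have h := congrArg (qExpand k 3) (h3_rel_a k)
  simp only [map_mul, map_pow, map_add, map_ofNat] at h
  exact h

theorem qExpand_three_jqN_three : qExpand k 3 (jqNModC k 3) = jqNModC k 9 := by
  rw [jqNModC, qExpand_qExpand]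
  exact qExpand_congr (by norm_num) _

theorem y9_rel_b : jqNModC k 9 * y9 k = (y9 k + 27) * (y9 k + 3) ^ 3 := by
  have h := congrArg (qExpand k 3) (h3_rel_b k)
  rw [map_mul, qExpand_three_jqN_three] at h
  simp only [map_mul, map_pow, map_add, map_ofNat] at h
  exact h

/-- The cubic relation between `h₃(q)` and `h₃(q³)`. -/
theorem cub9 : h3 k ^ 3 * y9 k ^ 2 + 36 * h3 k ^ 2 * y9 k ^ 2 + 729 * h3 k ^ 2 * y9 k +
    270 * h3 k * y9 k ^ 2 + 26244 * h3 k * y9 k + 531441 * h3 k - y9 k ^ 3 = 0 := by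
  have hG : (h3 k * y9 k - 729) *
      (h3 k ^ 3 * y9 k ^ 2 + 36 * h3 k ^ 2 * y9 k ^ 2 + 729 * h3 k ^ 2 * y9 k +
        270 * h3 k * y9 k ^ 2 + 26244 * h3 k * y9 k + 531441 * h3 k - y9 k ^ 3) = 0 := by
    linear_combination (-(y9 k ^ 3)) * h3_rel_b k + h3 k * y9_rel_a k
  have hne : h3 k * y9 k - 729 ≠ 0 := by
    have h1 : Lead (h3 k * y9 k) (-4) 1 :=
      ((lead_h3 k).mul (lead_y9 k)).congr (by norm_num) (by norm_num)
    exact (h1.sub_of_lt (lead_ofNat 729) (by norm_num)).ne_zero one_ne_zero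
  exact (mul_eq_zero.mp hG).resolve_left hne

/-- numerator of `t₉`. -/
def nn9 : LaurentSeries k := (h3 k ^ 2 + 18 * h3 k + 27) * y9 k + 1458 * h3 k

/-- denominator of `t₉`. -/
def dd9 : LaurentSeries k := (h3 k + 9) * y9 k - 243 * h3 k + 729

theorem lead_nn9 : Lead (nn9 k) (-5) 1 := by
  have hx := lead_h3 k
  have h1 : Lead (h3 k ^ 2) (-2) 1 := (hx.pow 2).congr (by norm_num) (by norm_num)
  have h2 : Lead (18 * h3 k) (-1) 18 :=
    ((lead_ofNat 18).mul hx).congr (by norm_num) (by norm_num)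
  have h3' : Lead (h3 k ^ 2 + 18 * h3 k + 27) (-2) 1 :=
    (h1.add_of_lt h2 (by norm_num)).add_of_lt (lead_ofNat 27) (by norm_num)
  have h4 : Lead ((h3 k ^ 2 + 18 * h3 k + 27) * y9 k) (-5) 1 :=
    (h3'.mul (lead_y9 k)).congr (by norm_num) (by norm_num)
  have h5 : Lead (1458 * h3 k) (-1) 1458 :=
    ((lead_ofNat 1458).mul hx).congr (by norm_num) (by norm_num)
  exact h4.add_of_lt h5 (by norm_num)

theorem lead_dd9 : Lead (dd9 k) (-4) 1 := by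
  have hx := lead_h3 k
  have h1 : Lead (h3 k + 9) (-1) 1 := hx.add_of_lt (lead_ofNat 9) (by norm_num)
  have h2 : Lead ((h3 k + 9) * y9 k) (-4) 1 :=
    (h1.mul (lead_y9 k)).congr (by norm_num) (by norm_num)
  have h3' : Lead (243 * h3 k) (-1) 243 :=
    ((lead_ofNat 243).mul hx).congr (by norm_num) (by norm_num)
  exact (h2.sub_of_lt h3' (by norm_num)).add_of_lt (lead_ofNat 729) (by norm_num)

theorem dd9_ne_zero : dd9 k ≠ 0 := (lead_dd9 k).ne_zero one_ne_zero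

/-- The Hauptmodul of level 9. -/
def t9 : LaurentSeries k := nn9 k / dd9 k

theorem t9_mul : t9 k * dd9 k = nn9 k := by
  rw [t9, div_mul_cancel₀ _ (dd9_ne_zero k)]

theorem lead_t9 : Lead (t9 k) (-1) 1 :=
  ((lead_nn9 k).div (lead_dd9 k) one_ne_zero).congr (by norm_num) (by norm_num)

/-- abstract form of `y = t (t² + 9 t + 27)` (cleared of denominators). -/
theorem aux9_one {L : Type*} [CommRing L] (x y t N D : L)
    (hN : N = (x ^ 2 + 18 * x + 27) * y + 1458 * x) (hD : D = (x + 9) * y - 243 * x + 729)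
    (hc : x ^ 3 * y ^ 2 + 36 * x ^ 2 * y ^ 2 + 729 * x ^ 2 * y + 270 * x * y ^ 2 +
      26244 * x * y + 531441 * x - y ^ 3 = 0) (hm : t * D = N) :
    y * D ^ 3 = t * (t ^ 2 + 9 * t + 27) * D ^ 3 := by
  subst hN hD
  linear_combination
    (-(x ^ 3 * y) - 27 * x ^ 2 * y - 1458 * x ^ 2 - 243 * x * y - 729 * y - 39366) * hc -
    (((x ^ 2 + 18 * x + 27) * y + 1458 * x) ^ 2 +
      ((x ^ 2 + 18 * x + 27) * y + 1458 * x) * (t * ((x + 9) * y - 243 * x + 729)) +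
      (t * ((x + 9) * y - 243 * x + 729)) ^ 2 +
      9 * ((x + 9) * y - 243 * x + 729) *
        (((x ^ 2 + 18 * x + 27) * y + 1458 * x) + t * ((x + 9) * y - 243 * x + 729)) +
      27 * ((x + 9) * y - 243 * x + 729) ^ 2) * hm

/-- abstract form of `x (t² + 9 t + 27) = t³` (cleared of denominators). -/
theorem aux9_two {L : Type*} [CommRing L] (x y t N D : L)
    (hN : N = (x ^ 2 + 18 * x + 27) * y + 1458 * x) (hD : D = (x + 9) * y - 243 * x + 729)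
    (hc : x ^ 3 * y ^ 2 + 36 * x ^ 2 * y ^ 2 + 729 * x ^ 2 * y + 270 * x * y ^ 2 +
      26244 * x * y + 531441 * x - y ^ 3 = 0) (hm : t * D = N) :
    x * (t ^ 2 + 9 * t + 27) * D ^ 3 = t ^ 3 * D ^ 3 := by
  subst hN hD
  linear_combination
    (-(243 * x ^ 3) - 5103 * x ^ 2 - 6561 * x + 19683) * hc +
    (x * ((x + 9) * y - 243 * x + 729) *
        (t * ((x + 9) * y - 243 * x + 729) + ((x ^ 2 + 18 * x + 27) * y + 1458 * x) +
          9 * ((x + 9) * y - 243 * x + 729)) -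
      ((t * ((x + 9) * y - 243 * x + 729)) ^ 2 +
        (t * ((x + 9) * y - 243 * x + 729)) * ((x ^ 2 + 18 * x + 27) * y + 1458 * x) +
        ((x ^ 2 + 18 * x + 27) * y + 1458 * x) ^ 2)) * hm

/-- `h₃(q³) = t (t² + 9 t + 27)`. -/
theorem y9_eq : y9 k = t9 k * (t9 k ^ 2 + 9 * t9 k + 27) :=
  mul_right_cancel₀ (pow_ne_zero 3 (dd9_ne_zero k))
    (aux9_one (h3 k) (y9 k) (t9 k) (nn9 k) (dd9 k) rfl rfl (cub9 k) (t9_mul k))

/-- `h₃(q) (t² + 9 t + 27) = t³`. -/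
theorem h3_mul_t9 : h3 k * (t9 k ^ 2 + 9 * t9 k + 27) = t9 k ^ 3 :=
  mul_right_cancel₀ (pow_ne_zero 3 (dd9_ne_zero k))
    (aux9_two (h3 k) (y9 k) (t9 k) (nn9 k) (dd9 k) rfl rfl (cub9 k) (t9_mul k))

/-- `j · t⁹ (t² + 9 t + 27) = (t + 9)³ (t³ + 243 t² + 2187 t + 6561)³`. -/
theorem t9_rel_one :
    jqModC k * (t9 k ^ 9 * (t9 k ^ 2 + 9 * t9 k + 27)) =
      (t9 k + 9) ^ 3 * (t9 k ^ 3 + 243 * t9 k ^ 2 + 2187 * t9 k + 6561) ^ 3 := by
  have e : jqModC k * (h3 k * (t9 k ^ 2 + 9 * t9 k + 27)) ^ 3 * (t9 k ^ 2 + 9 * t9 k + 27) =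
      (h3 k * (t9 k ^ 2 + 9 * t9 k + 27) + 27 * (t9 k ^ 2 + 9 * t9 k + 27)) *
        (h3 k * (t9 k ^ 2 + 9 * t9 k + 27) + 243 * (t9 k ^ 2 + 9 * t9 k + 27)) ^ 3 := by
    linear_combination (t9 k ^ 2 + 9 * t9 k + 27) ^ 4 * h3_rel_a k
  rw [h3_mul_t9] at e
  linear_combination e

/-- `j(q³) · t³ (t² + 9 t + 27)³ = (t + 9)³ (t³ + 3 t² + 27 t + 81)³`. -/
theorem t9_rel_three :
    jqNModC k 3 * (t9 k ^ 3 * (t9 k ^ 2 + 9 * t9 k + 27) ^ 3) =
      (t9 k + 9) ^ 3 * (t9 k ^ 3 + 3 * t9 k ^ 2 + 27 * t9 k + 81) ^ 3 := by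
  have e : jqNModC k 3 * (h3 k * (t9 k ^ 2 + 9 * t9 k + 27)) * (t9 k ^ 2 + 9 * t9 k + 27) ^ 3 =
      (h3 k * (t9 k ^ 2 + 9 * t9 k + 27) + 27 * (t9 k ^ 2 + 9 * t9 k + 27)) *
        (h3 k * (t9 k ^ 2 + 9 * t9 k + 27) + 3 * (t9 k ^ 2 + 9 * t9 k + 27)) ^ 3 := by
    linear_combination (t9 k ^ 2 + 9 * t9 k + 27) ^ 4 * h3_rel_b k
  rw [h3_mul_t9] at e
  linear_combination e

/-- `j(q⁹) · t (t² + 9 t + 27) = (t + 3)³ (t³ + 9 t² + 27 t + 3)³`. -/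
theorem t9_rel_nine :
    jqNModC k 9 * (t9 k * (t9 k ^ 2 + 9 * t9 k + 27)) =
      (t9 k + 3) ^ 3 * (t9 k ^ 3 + 9 * t9 k ^ 2 + 27 * t9 k + 3) ^ 3 := by
  have e := y9_rel_b k
  rw [y9_eq] at e
  linear_combination e

theorem t9_ne_zero : t9 k ≠ 0 := (lead_t9 k).ne_zero one_ne_zero

theorem lead_s9 : Lead (t9 k ^ 2 + 9 * t9 k + 27) (-2) 1 := by
  have ht := lead_t9 k
  have h1 : Lead (t9 k ^ 2) (-2) 1 := (ht.pow 2).congr (by norm_num) (by norm_num)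
  have h2 : Lead (9 * t9 k) (-1) 9 := ((lead_ofNat 9).mul ht).congr (by norm_num) (by norm_num)
  exact (h1.add_of_lt h2 (by norm_num)).add_of_lt (lead_ofNat 27) (by norm_num)

theorem s9_ne_zero : t9 k ^ 2 + 9 * t9 k + 27 ≠ 0 := (lead_s9 k).ne_zero one_ne_zero

/-! ### The field generated by `t₉` -/

/-- The coefficient of the linear relation `a · h₃ = b` over `k(j, j(q³))`. -/
def a3 (j j3 : LaurentSeries k) : LaurentSeries k :=
  (-1) * j ^ 3 * j3 ^ 2 + 1512 * j ^ 3 * j3 ^ 1 + (-374706) * j ^ 3 * j3 ^ 0 + 2232 * j ^ 2 *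
    j3 ^ 2 + 2202104637 * j ^ 2 * j3 ^ 1 + 3513047559120 * j ^ 2 * j3 ^ 0 + (-1069956) * j ^ 1
    * j3 ^ 2 + 9457338111840 * j ^ 1 * j3 ^ 1 + (-572980708638720000) * j ^ 1 * j3 ^ 0 + 1 * j
    ^ 0 * j3 ^ 3 + 36864720 * j ^ 0 * j3 ^ 2 + 328219361280000 * j ^ 0 * j3 ^ 1 +
    2641807540224000000000 * j ^ 0 * j3 ^ 0

/-- The constant term of the linear relation `a · h₃ = b` over `k(j, j(q³))`. -/
def b3 (j j3 : LaurentSeries k) : LaurentSeries k :=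
  (-729) * j ^ 3 * j3 ^ 1 + 551124 * j ^ 3 * j3 ^ 0 + (-13945510476) * j ^ 2 * j3 ^ 1 +
    (-16876879720560) * j ^ 2 * j3 ^ 0 + (-55775383276320) * j ^ 1 * j3 ^ 1 +
    10354866501058560000 * j ^ 1 * j3 ^ 0 + (-387419760) * j ^ 0 * j3 ^ 2 + 35305797058560000 *
    j ^ 0 * j3 ^ 1 + (-71328803586048000000000) * j ^ 0 * j3 ^ 0

theorem a3_mul_h3 : a3 k (jqModC k) (jqNModC k 3) * h3 k = b3 k (jqModC k) (jqNModC k 3) := by
  unfold a3 b3
  linear_combination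
    (-(270 * h3 k ^ 2 * jqModC k ^ 2 * jqNModC k 3 ^ 0 + 1 * h3 k ^ 2 * jqModC k ^ 1 * jqNModC k 3 ^ 1 + 25818480 * h3 k ^ 2 * jqModC k ^ 1 * jqNModC k 3 ^ 0 + (-720) * h3 k ^ 2 * jqModC k ^ 0 * jqNModC k 3 ^ 1 + 19906560000 * h3 k ^ 2 * jqModC k ^ 0 * jqNModC k 3 ^ 0 + 1 * h3 k ^ 1 * jqModC k ^ 2 * jqNModC k 3 ^ 1 + 8964 * h3 k ^ 1 * jqModC k ^ 2 * jqNModC k 3 ^ 0 + (-1440) * h3 k ^ 1 * jqModC k ^ 1 * jqNModC k 3 ^ 1 + (-145586160) * h3 k ^ 1 * jqModC k ^ 1 * jqNModC k 3 ^ 0 + 321840 * h3 k ^ 1 * jqModC k ^ 0 * jqNModC k 3 ^ 1 + (-2269347840000) * h3 k ^ 1 * jqModC k ^ 0 * jqNModC k 3 ^ 0 + 36 * h3 k ^ 0 * jqModC k ^ 2 * jqNModC k 3 ^ 1 + 45684 * h3 k ^ 0 * jqModC k ^ 2 * jqNModC k 3 ^ 0 + 143964 * h3 k ^ 0 * jqModC k ^ 1 * jqNModC k 3 ^ 1 + (-26714059200) * h3 k ^ 0 * jqModC k ^ 1 * jqNModC k 3 ^ 0 + 1 * h3 k ^ 0 * jqModC k ^ 0 * jqNModC k 3 ^ 2 + (-91130400) * h3 k ^ 0 *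 jqModC k ^ 0 * jqNModC k 3 ^ 1 + 184115773440000 * h3 k ^ 0 * jqModC k ^ 0 * jqNModC k 3 ^ 0)) * h3_rel_a k +
    (-((-270) * h3 k ^ 2 * jqModC k ^ 2 * jqNModC k 3 ^ 0 + (-1) * h3 k ^ 2 * jqModC k ^ 1 * jqNModC k 3 ^ 1 + (-25818480) * h3 k ^ 2 * jqModC k ^ 1 * jqNModC k 3 ^ 0 + 720 * h3 k ^ 2 * jqModC k ^ 0 * jqNModC k 3 ^ 1 + (-19906560000) * h3 k ^ 2 * jqModC k ^ 0 * jqNModC k 3 ^ 0 + 270 * h3 k ^ 1 * jqModC k ^ 3 * jqNModC k 3 ^ 0 + 25615116 * h3 k ^ 1 * jqModC k ^ 2 * jqNModC k 3 ^ 0 + 1462840560 * h3 k ^ 1 * jqModC k ^ 1 * jqNModC k 3 ^ 0 + 196560 * h3 k ^ 1 * jqModC k ^ 0 * jqNModC k 3 ^ 1 + (-12063375360000) * h3 k ^ 1 * jqModC k ^ 0 * jqNModC k 3 ^ 0 + 1 * h3 k ^ 0 * jqModC k ^ 3 * jqNModC k 3 ^ 1 + (-756) * h3 k ^ 0 * jqModC k ^ 3 * jqNModC k 3 ^ 0 + (-2232) * h3 k ^ 0 * jqModC k ^ 2 * jqNModC k 3 ^ 1 + (-1127624004) * h3 k ^ 0 * jqModC k ^ 2 * jqNModC k 3 ^ 0 + 1069956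 * h3 k ^ 0 * jqModC k ^ 1 * jqNModC k 3 ^ 1 + (-7260113332800) * h3 k ^ 0 * jqModC k ^ 1 * jqNModC k 3 ^ 0 + (-1) * h3 k ^ 0 * jqModC k ^ 0 * jqNModC k 3 ^ 2 + (-17733600) * h3 k ^ 0 * jqModC k ^ 0 * jqNModC k 3 ^ 1 + (-1947040727040000) * h3 k ^ 0 * jqModC k ^ 0 * jqNModC k 3 ^ 0)) * h3_rel_b k

/-- `-3⁻¹⁸ x¹¹ a₃(j(x), j₃(x))` as a polynomial in the Hauptmodul `x` (Horner form). -/
def m16 (x : LaurentSeries k) : LaurentSeries k :=
  (79766443076872509863361 + x * (11817250826203334794572 + x * (30248271662133638856888 + x *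
    (12276547822292907512196 + x * (11966504510609689549212 + x * (2580751591899231142476 + x *
    (377735079479540281992 + x * (19969914526229730852 + x * (795914464089548294 + x *
    (27393572738312388 + x * (710775193256712 + x * (6661370952684 + x * (42369876252 + x *
    (59626404 + x * (201528 + x * (108 + x * 1))))))))))))))))

theorem lead_m16 : Lead (m16 k (h3 k)) (-((16 : ℕ) : ℤ)) 1 := by
  unfold m16
  exact
    (Lead.horner (lead_h3 k) (Lead.horner (lead_h3 k) (Lead.horner (lead_h3 k) (Lead.horner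
      (lead_h3 k) (Lead.horner (lead_h3 k) (Lead.horner (lead_h3 k) (Lead.horner (lead_h3 k)
      (Lead.horner (lead_h3 k) (Lead.horner (lead_h3 k) (Lead.horner (lead_h3 k) (Lead.horner
      (lead_h3 k) (Lead.horner (lead_h3 k) (Lead.horner (lead_h3 k) (Lead.horner (lead_h3 k)
      (Lead.horner (lead_h3 k) (Lead.horner (lead_h3 k) lead_one_horner (lead_ofNat 108))
      (lead_ofNat 201528)) (lead_ofNat 59626404)) (lead_ofNat 42369876252)) (lead_ofNat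
      6661370952684)) (lead_ofNat 710775193256712)) (lead_ofNat 27393572738312388)) (lead_ofNat
      795914464089548294)) (lead_ofNat 19969914526229730852)) (lead_ofNat
      377735079479540281992)) (lead_ofNat 2580751591899231142476)) (lead_ofNat
      11966504510609689549212)) (lead_ofNat 12276547822292907512196)) (lead_ofNat
      30248271662133638856888)) (lead_ofNat 11817250826203334794572)) (lead_ofNat
      79766443076872509863361))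

variable {k} in
theorem a3_ne_zero (h3ne : (3 : k) ≠ 0) : a3 k (jqModC k) (jqNModC k 3) ≠ 0 := by
  have e1 : a3 k (jqModC k) (jqNModC k 3) * h3 k ^ 11 =
      (-1) * (jqModC k * h3 k ^ 3) ^ 3 * (jqNModC k 3 * h3 k) ^ 2 * h3 k ^ 0 + 1512 * (jqModC k
        * h3 k ^ 3) ^ 3 * (jqNModC k 3 * h3 k) ^ 1 * h3 k ^ 1 + (-374706) * (jqModC k * h3 k ^
        3) ^ 3 * (jqNModC k 3 * h3 k) ^ 0 * h3 k ^ 2 + 2232 * (jqModC k * h3 k ^ 3) ^ 2 *
        (jqNModC k 3 * h3 k) ^ 2 * h3 k ^ 3 + 2202104637 * (jqModC k * h3 k ^ 3) ^ 2 * (jqNModC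
        k 3 * h3 k) ^ 1 * h3 k ^ 4 + 3513047559120 * (jqModC k * h3 k ^ 3) ^ 2 * (jqNModC k 3 *
        h3 k) ^ 0 * h3 k ^ 5 + (-1069956) * (jqModC k * h3 k ^ 3) ^ 1 * (jqNModC k 3 * h3 k) ^
        2 * h3 k ^ 6 + 9457338111840 * (jqModC k * h3 k ^ 3) ^ 1 * (jqNModC k 3 * h3 k) ^ 1 *
        h3 k ^ 7 + (-572980708638720000) * (jqModC k * h3 k ^ 3) ^ 1 * (jqNModC k 3 * h3 k) ^ 0
        * h3 k ^ 8 + 1 * (jqModC k * h3 k ^ 3) ^ 0 * (jqNModC k 3 * h3 k) ^ 3 * h3 k ^ 8 +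
        36864720 * (jqModC k * h3 k ^ 3) ^ 0 * (jqNModC k 3 * h3 k) ^ 2 * h3 k ^ 9 +
        328219361280000 * (jqModC k * h3 k ^ 3) ^ 0 * (jqNModC k 3 * h3 k) ^ 1 * h3 k ^ 10 +
        2641807540224000000000 * (jqModC k * h3 k ^ 3) ^ 0 * (jqNModC k 3 * h3 k) ^ 0 * h3 k ^
        11 := by
    unfold a3; ring
  rw [h3_rel_a k, h3_rel_b k] at e1
  have e2 : a3 k (jqModC k) (jqNModC k 3) * h3 k ^ 11 =
      -(3 : LaurentSeries k) ^ 18 * m16 k (h3 k) := by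
    rw [e1]; unfold m16; ring
  have h3L : (3 : LaurentSeries k) ≠ 0 := (lead_ofNat (k := k) 3).ne_zero h3ne
  have hne : -(3 : LaurentSeries k) ^ 18 * m16 k (h3 k) ≠ 0 :=
    mul_ne_zero (neg_ne_zero.mpr (pow_ne_zero 18 h3L)) ((lead_m16 k).ne_zero one_ne_zero)
  intro ha
  rw [ha, zero_mul] at e2
  exact hne e2.symm

theorem a3_mem (s : IntermediateField k (LaurentSeries k)) {u v : LaurentSeries k} (hu : u ∈ s)
    (hv : v ∈ s) : a3 k u v ∈ s := by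
  unfold a3
  exact
    (add_mem (add_mem (add_mem (add_mem (add_mem (add_mem (add_mem (add_mem (add_mem (add_mem
      (add_mem (add_mem (mul_mem (mul_mem (neg_mem (one_mem _)) (pow_mem hu 3)) (pow_mem hv 2))
      (mul_mem (mul_mem (ofNat_mem _ _) (pow_mem hu 3)) (pow_mem hv 1))) (mul_mem (mul_mem
      (neg_mem (ofNat_mem _ _)) (pow_mem hu 3)) (pow_mem hv 0))) (mul_mem (mul_mem (ofNat_mem _
      _) (pow_mem hu 2)) (pow_mem hv 2))) (mul_mem (mul_mem (ofNat_mem _ _) (pow_mem hu 2))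
      (pow_mem hv 1))) (mul_mem (mul_mem (ofNat_mem _ _) (pow_mem hu 2)) (pow_mem hv 0)))
      (mul_mem (mul_mem (neg_mem (ofNat_mem _ _)) (pow_mem hu 1)) (pow_mem hv 2))) (mul_mem
      (mul_mem (ofNat_mem _ _) (pow_mem hu 1)) (pow_mem hv 1))) (mul_mem (mul_mem (neg_mem
      (ofNat_mem _ _)) (pow_mem hu 1)) (pow_mem hv 0))) (mul_mem (mul_mem (one_mem _) (pow_mem
      hu 0)) (pow_mem hv 3))) (mul_mem (mul_mem (ofNat_mem _ _) (pow_mem hu 0)) (pow_mem hv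
      2))) (mul_mem (mul_mem (ofNat_mem _ _) (pow_mem hu 0)) (pow_mem hv 1))) (mul_mem (mul_mem
      (ofNat_mem _ _) (pow_mem hu 0)) (pow_mem hv 0)))

theorem b3_mem (s : IntermediateField k (LaurentSeries k)) {u v : LaurentSeries k} (hu : u ∈ s)
    (hv : v ∈ s) : b3 k u v ∈ s := by
  unfold b3
  exact
    (add_mem (add_mem (add_mem (add_mem (add_mem (add_mem (add_mem (add_mem (mul_mem (mul_mem
      (neg_mem (ofNat_mem _ _)) (pow_mem hu 3)) (pow_mem hv 1)) (mul_mem (mul_mem (ofNat_mem _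
      _) (pow_mem hu 3)) (pow_mem hv 0))) (mul_mem (mul_mem (neg_mem (ofNat_mem _ _)) (pow_mem
      hu 2)) (pow_mem hv 1))) (mul_mem (mul_mem (neg_mem (ofNat_mem _ _)) (pow_mem hu 2))
      (pow_mem hv 0))) (mul_mem (mul_mem (neg_mem (ofNat_mem _ _)) (pow_mem hu 1)) (pow_mem hv
      1))) (mul_mem (mul_mem (ofNat_mem _ _) (pow_mem hu 1)) (pow_mem hv 0))) (mul_mem (mul_mem
      (neg_mem (ofNat_mem _ _)) (pow_mem hu 0)) (pow_mem hv 2))) (mul_mem (mul_mem (ofNat_mem _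
      _) (pow_mem hu 0)) (pow_mem hv 1))) (mul_mem (mul_mem (neg_mem (ofNat_mem _ _)) (pow_mem
      hu 0)) (pow_mem hv 0)))

variable {k} in
/-- `h₃ ∈ k(j, j(q³))`. -/
theorem h3_mem (h3ne : (3 : k) ≠ 0) : h3 k ∈ modularFunctionFieldFullC k 3 := by
  have ha := a3_ne_zero h3ne
  have hx : h3 k = b3 k (jqModC k) (jqNModC k 3) / a3 k (jqModC k) (jqNModC k 3) := by
    rw [eq_div_iff ha, mul_comm]
    exact a3_mul_h3 k
  have hj : jqModC k ∈ modularFunctionFieldFullC k 3 := jqModC_mem_full k 3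
  have hj3 : jqNModC k 3 ∈ modularFunctionFieldFullC k 3 := jqModCd_mem_full k 3 dvd_rfl
  rw [hx]
  exact div_mem (b3_mem k _ hj hj3) (a3_mem k _ hj hj3)

variable {k} in
theorem t9_mem (h3ne : (3 : k) ≠ 0) : t9 k ∈ modularFunctionFieldFullC k 9 := by
  have hx : h3 k ∈ modularFunctionFieldFullC k 9 :=
    full_degeneracyC_le k (N := 3) (M := 9) (by norm_num) (h3_mem h3ne)
  have hy : y9 k ∈ modularFunctionFieldFullC k 9 := by
    have h0 : qExpandAlgHomC k 3 (h3 k) ∈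
        (modularFunctionFieldFullC k 3).map (qExpandAlgHomC k 3) :=
      (IntermediateField.map_mem_map _ _).mpr (h3_mem h3ne)
    exact full_degeneracyC_map_le k 3 3 h0
  unfold t9 nn9 dd9
  exact div_mem (add_mem (mul_mem (add_mem (add_mem (pow_mem hx 2) (mul_mem (ofNat_mem _ _) hx))
    (ofNat_mem _ _)) hy) (mul_mem (ofNat_mem _ _) hx))
    (add_mem (sub_mem (mul_mem (add_mem hx (ofNat_mem _ _)) hy) (mul_mem (ofNat_mem _ _) hx))
      (ofNat_mem _ _))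

variable {k} in
/-- `k(t₉) = k(j, j(q³), j(q⁹))`. -/
theorem adjoin_t9 (h3ne : (3 : k) ≠ 0) :
    IntermediateField.adjoin k {t9 k} = modularFunctionFieldFullC k 9 := by
  apply le_antisymm
  · rw [IntermediateField.adjoin_le_iff]
    exact Set.singleton_subset_iff.mpr (t9_mem h3ne)
  · rw [modularFunctionFieldFullC, IntermediateField.adjoin_le_iff]
    have ht : t9 k ∈ IntermediateField.adjoin k {t9 k} :=
      IntermediateField.subset_adjoin k _ (Set.mem_singleton _)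
    have hs : t9 k ^ 2 + 9 * t9 k + 27 ∈ IntermediateField.adjoin k {t9 k} :=
      add_mem (add_mem (pow_mem ht 2) (mul_mem (ofNat_mem _ _) ht)) (ofNat_mem _ _)
    have hc : ∀ a b c : ℕ, ∀ [a.AtLeastTwo] [b.AtLeastTwo] [c.AtLeastTwo],
        t9 k ^ 3 + OfNat.ofNat a * t9 k ^ 2 + OfNat.ofNat b * t9 k + OfNat.ofNat c ∈
          IntermediateField.adjoin k {t9 k} := fun a b c _ _ _ =>
      add_mem (add_mem (add_mem (pow_mem ht 3) (mul_mem (ofNat_mem _ _) (pow_mem ht 2)))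
        (mul_mem (ofNat_mem _ _) ht)) (ofNat_mem _ _)
    rintro x ⟨d, hne, hdvd, rfl⟩
    have hd : d = 1 ∨ d = 3 ∨ d = 9 := by
      have hle : d ≤ 9 := Nat.le_of_dvd (by norm_num) hdvd
      interval_cases d <;> simp_all
    rcases hd with rfl | rfl | rfl
    · have e : qExpand k 1 (jqModC k) =
          (t9 k + 9) ^ 3 * (t9 k ^ 3 + 243 * t9 k ^ 2 + 2187 * t9 k + 6561) ^ 3 /
            (t9 k ^ 9 * (t9 k ^ 2 + 9 * t9 k + 27)) := by
        rw [qExpand_one_apply, eq_div_iff (mul_ne_zero (pow_ne_zero 9 (t9_ne_zero k))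
          (s9_ne_zero k))]
        exact t9_rel_one k
      rw [SetLike.mem_coe, e]
      exact div_mem (mul_mem (pow_mem (add_mem ht (ofNat_mem _ _)) 3) (pow_mem (hc 243 2187 6561) 3))
        (mul_mem (pow_mem ht 9) hs)
    · have e : qExpand k 3 (jqModC k) =
          (t9 k + 9) ^ 3 * (t9 k ^ 3 + 3 * t9 k ^ 2 + 27 * t9 k + 81) ^ 3 /
            (t9 k ^ 3 * (t9 k ^ 2 + 9 * t9 k + 27) ^ 3) := by
        rw [eq_div_iff (mul_ne_zero (pow_ne_zero 3 (t9_ne_zero k))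
          (pow_ne_zero 3 (s9_ne_zero k)))]
        exact t9_rel_three k
      rw [SetLike.mem_coe, e]
      exact div_mem (mul_mem (pow_mem (add_mem ht (ofNat_mem _ _)) 3) (pow_mem (hc 3 27 81) 3))
        (mul_mem (pow_mem ht 3) (pow_mem hs 3))
    · have e : qExpand k 9 (jqModC k) =
          (t9 k + 3) ^ 3 * (t9 k ^ 3 + 9 * t9 k ^ 2 + 27 * t9 k + 3) ^ 3 /
            (t9 k * (t9 k ^ 2 + 9 * t9 k + 27)) := by
        rw [eq_div_iff (mul_ne_zero (t9_ne_zero k) (s9_ne_zero k))]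
        exact t9_rel_nine k
      rw [SetLike.mem_coe, e]
      exact div_mem (mul_mem (pow_mem (add_mem ht (ofNat_mem _ _)) 3) (pow_mem (hc 9 27 3) 3))
        (mul_mem ht hs)

/-- **[Aux0], level 9**: an explicit Hauptmodul of `k(j, j(q³), j(q⁹))` for `3 ≠ 0` in `k`. -/
theorem aux0_nine (k : Type*) [Field k] (h3ne : (3 : k) ≠ 0) :
    ∃ t : LaurentSeries k, t.orderTop = ((-1 : ℤ) : WithTop ℤ) ∧ t.leadingCoeff = 1 ∧
      IntermediateField.adjoin k {t} = ModularCurve.modularFunctionFieldFullC k 9 ∧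
      ModularCurve.jqModC k * (t ^ 9 * (t ^ 2 + 9 * t + 27)) =
        (t + 9) ^ 3 * (t ^ 3 + 243 * t ^ 2 + 2187 * t + 6561) ^ 3 :=
  ⟨t9 k, (lead_t9 k).orderTop_eq one_ne_zero, (lead_t9 k).leadingCoeff_eq one_ne_zero,
    adjoin_t9 h3ne, t9_rel_one k⟩

end

end Fermat.Agent.S18.Haupt
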