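import Mathlib
import Fermat.Agent.S18.Haupt.Level23
import Fermat.Agent.S18.Haupt.Lead

set_option autoImplicit false

/-!
# The Hauptmodul of level 4

Over a field `k`: with `x = h₂(q)`, `y = h₂(q²)`, the series `t₄ = y (x + 16) / (y + 256)`
(`= q⁻¹ - 8 + 20 q - …`, the `q`-expansion of `η(τ)⁸/η(4τ)⁸`) satisfies
`x (t + 16) = t²`, `y = t (t + 16)` and

* `j · t⁴ (t + 16) = (t² + 256 t + 4096)³`,
* `j(q²) · t² (t + 16)² = (t² + 16 t + 256)³`,
* `j(q⁴) · t (t + 16) = (t² + 16 t + 16)³`.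

If `2 ≠ 0` in `k`, then `k(t₄) = k(j, j(q²), j(q⁴))`.
-/

namespace Fermat.Agent.S18.Haupt

open ModularCurve HahnSeries

noncomputable section

variable (k : Type*) [Field k]

theorem lead_h2 : Lead (h2 k) (-1) 1 :=
  ⟨_, h2_eq k, by
    rw [← PowerSeries.coeff_zero_eq_constantCoeff, PowerSeries.coeff_map,
      PowerSeries.coeff_zero_eq_constantCoeff, constantCoeff_w2Z]
    simp⟩

/-- `h₂(q²)`. -/
def y4 : LaurentSeries k := qExpand k 2 (h2 k)

theorem lead_y4 : Lead (y4 k) (-2) 1 :=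
  ((lead_h2 k).qExpand 2).congr (by norm_num) rfl

theorem y4_rel_a : jqNModC k 2 * y4 k ^ 2 = (y4 k + 256) ^ 3 := by
  have h := congrArg (qExpand k 2) (h2_rel_a k)
  simp only [map_mul, map_pow, map_add, map_ofNat] at h
  exact h

theorem qExpand_two_jqN_two : qExpand k 2 (jqNModC k 2) = jqNModC k 4 := by
  rw [jqNModC, qExpand_qExpand]
  exact qExpand_congr (by norm_num) _

theorem y4_rel_b : jqNModC k 4 * y4 k = (y4 k + 16) ^ 3 := by
  have h := congrArg (qExpand k 2) (h2_rel_b k)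
  rw [map_mul, qExpand_two_jqN_two] at h
  simp only [map_pow, map_add, map_ofNat] at h
  exact h

/-- The quadratic relation between `h₂(q)` and `h₂(q²)`. -/
theorem quad4 : y4 k * h2 k ^ 2 + (48 * y4 k + 4096) * h2 k - y4 k ^ 2 = 0 := by
  have hG : (h2 k * y4 k - 4096) *
      (y4 k * h2 k ^ 2 + (48 * y4 k + 4096) * h2 k - y4 k ^ 2) = 0 := by
    linear_combination (-(y4 k ^ 2)) * h2_rel_b k + h2 k * y4_rel_a k
  have hne : h2 k * y4 k - 4096 ≠ 0 := by
    have h1 : Lead (h2 k * y4 k) (-3) 1 :=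
      ((lead_h2 k).mul (lead_y4 k)).congr (by norm_num) (by norm_num)
    exact (h1.sub_of_lt (lead_ofNat 4096) (by norm_num)).ne_zero one_ne_zero
  exact (mul_eq_zero.mp hG).resolve_left hne

theorem y4_add_ne_zero : y4 k + 256 ≠ 0 :=
  ((lead_y4 k).add_of_lt (lead_ofNat 256) (by norm_num)).ne_zero one_ne_zero

/-- The Hauptmodul of level 4. -/
def t4 : LaurentSeries k := y4 k * (h2 k + 16) / (y4 k + 256)

theorem t4_mul : t4 k * (y4 k + 256) = y4 k * (h2 k + 16) := by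
  rw [t4, div_mul_cancel₀ _ (y4_add_ne_zero k)]

theorem lead_t4 : Lead (t4 k) (-1) 1 := by
  have h1 : Lead (h2 k + 16) (-1) 1 := (lead_h2 k).add_of_lt (lead_ofNat 16) (by norm_num)
  have h2 : Lead (y4 k + 256) (-2) 1 := (lead_y4 k).add_of_lt (lead_ofNat 256) (by norm_num)
  exact (((lead_y4 k).mul h1).div h2 one_ne_zero).congr (by norm_num) (by norm_num)

/-- `h₂(q²) = t (t + 16)`. -/
theorem y4_eq : y4 k = t4 k * (t4 k + 16) := by
  refine mul_right_cancel₀ (pow_ne_zero 2 (y4_add_ne_zero k)) ?_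
  linear_combination (-(y4 k)) * quad4 k -
    (t4 k * (y4 k + 256) + y4 k * (h2 k + 16) + 16 * (y4 k + 256)) * t4_mul k

/-- `h₂(q) (t + 16) = t²`. -/
theorem h2_mul_t4 : h2 k * (t4 k + 16) = t4 k ^ 2 := by
  refine mul_right_cancel₀ (pow_ne_zero 2 (y4_add_ne_zero k)) ?_
  linear_combination (256 : LaurentSeries k) * quad4 k +
    (h2 k * (y4 k + 256) - t4 k * (y4 k + 256) - y4 k * (h2 k + 16)) * t4_mul k

/-- `j · t⁴ (t + 16) = (t² + 256 t + 4096)³`. -/
theorem t4_rel_one :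
    jqModC k * (t4 k ^ 4 * (t4 k + 16)) = (t4 k ^ 2 + 256 * t4 k + 4096) ^ 3 := by
  have e : jqModC k * (h2 k * (t4 k + 16)) ^ 2 * (t4 k + 16) =
      (h2 k * (t4 k + 16) + 256 * (t4 k + 16)) ^ 3 := by
    linear_combination (t4 k + 16) ^ 3 * h2_rel_a k
  rw [h2_mul_t4] at e
  linear_combination e

/-- `j(q²) · t² (t + 16)² = (t² + 16 t + 256)³`. -/
theorem t4_rel_two :
    jqNModC k 2 * (t4 k ^ 2 * (t4 k + 16) ^ 2) = (t4 k ^ 2 + 16 * t4 k + 256) ^ 3 := by
  have e : jqNModC k 2 * (h2 k * (t4 k + 16)) * (t4 k + 16) ^ 2 =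
      (h2 k * (t4 k + 16) + 16 * (t4 k + 16)) ^ 3 := by
    linear_combination (t4 k + 16) ^ 3 * h2_rel_b k
  rw [h2_mul_t4] at e
  linear_combination e

/-- `j(q⁴) · t (t + 16) = (t² + 16 t + 16)³`. -/
theorem t4_rel_four :
    jqNModC k 4 * (t4 k * (t4 k + 16)) = (t4 k ^ 2 + 16 * t4 k + 16) ^ 3 := by
  have e := y4_rel_b k
  rw [y4_eq] at e
  linear_combination e

/-! ### The field generated by `t₄` -/

theorem t4_ne_zero : t4 k ≠ 0 := (lead_t4 k).ne_zero one_ne_zero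

theorem t4_add_ne_zero : t4 k + 16 ≠ 0 :=
  ((lead_t4 k).add_of_lt (lead_ofNat 16) (by norm_num)).ne_zero one_ne_zero

/-- The coefficient of the linear relation `a · h₂ = b` over `k(j, j(q²))`. -/
def a2 (j j2 : LaurentSeries k) : LaurentSeries k :=
  (720 - j) ^ 2 * (768 - j2) - (720 - j) * 16773120 - 48 * (720 - j) * (195840 + j2) +
    (195840 + j2) ^ 2

/-- The constant term of the linear relation `a · h₂ = b` over `k(j, j(q²))`. -/
def b2 (j j2 : LaurentSeries k) : LaurentSeries k :=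
  16773120 * (48 * (720 - j) - (195840 + j2)) - 4096 * (720 - j) ^ 2

theorem a2_mul_h2 : a2 k (jqModC k) (jqNModC k 2) * h2 k = b2 k (jqModC k) (jqNModC k 2) := by
  unfold a2 b2
  linear_combination
    (-((720 - jqModC k) ^ 2 + (720 - jqModC k) * h2 k + 48 * (720 - jqModC k) -
      (195840 + jqNModC k 2))) * h2_rel_b k +
    ((720 - jqModC k) * h2 k + 48 * (720 - jqModC k) - (195840 + jqNModC k 2)) * h2_rel_a k

variable {k} in
theorem a2_ne_zero (h2ne : (2 : k) ≠ 0) : a2 k (jqModC k) (jqNModC k 2) ≠ 0 := by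
  have e1 : a2 k (jqModC k) (jqNModC k 2) * h2 k ^ 5 =
      (720 * h2 k ^ 2 - jqModC k * h2 k ^ 2) ^ 2 * (768 * h2 k - jqNModC k 2 * h2 k) -
        (720 * h2 k ^ 2 - jqModC k * h2 k ^ 2) * 16773120 * h2 k ^ 3 -
        48 * (720 * h2 k ^ 2 - jqModC k * h2 k ^ 2) * (195840 * h2 k + jqNModC k 2 * h2 k) *
          h2 k ^ 2 + (195840 * h2 k + jqNModC k 2 * h2 k) ^ 2 * h2 k ^ 3 := by
    unfold a2; ring
  rw [h2_rel_a k, h2_rel_b k] at e1
  have e2 : a2 k (jqModC k) (jqNModC k 2) * h2 k ^ 5 = -(2 : LaurentSeries k) ^ 24 *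
      (68719476736 + h2 k * (1610612736 + h2 k * (814940160 + h2 k * (9451775 + h2 k *
        (198960 + h2 k * (96 + h2 k * 1)))))) := by
    rw [e1]; ring
  have hM : Lead (68719476736 + h2 k * (1610612736 + h2 k * (814940160 + h2 k * (9451775 +
      h2 k * (198960 + h2 k * (96 + h2 k * 1)))))) (-((6 : ℕ) : ℤ)) 1 :=
    Lead.horner (lead_h2 k) (Lead.horner (lead_h2 k) (Lead.horner (lead_h2 k)
      (Lead.horner (lead_h2 k) (Lead.horner (lead_h2 k) (Lead.horner (lead_h2 k)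
        lead_one_horner (lead_ofNat 96)) (lead_ofNat 198960)) (lead_ofNat 9451775))
          (lead_ofNat 814940160)) (lead_ofNat 1610612736)) (lead_ofNat 68719476736)
  intro ha
  rw [ha, zero_mul] at e2
  have h2L : (2 : LaurentSeries k) ≠ 0 := (lead_ofNat (k := k) 2).ne_zero h2ne
  exact mul_ne_zero (neg_ne_zero.mpr (pow_ne_zero 24 h2L)) (hM.ne_zero one_ne_zero) e2.symm

theorem a2_mem (s : IntermediateField k (LaurentSeries k)) {u v : LaurentSeries k} (hu : u ∈ s)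
    (hv : v ∈ s) : a2 k u v ∈ s := by
  unfold a2
  exact add_mem (sub_mem (sub_mem (mul_mem (pow_mem (sub_mem (ofNat_mem _ _) hu) 2)
    (sub_mem (ofNat_mem _ _) hv)) (mul_mem (sub_mem (ofNat_mem _ _) hu) (ofNat_mem _ _)))
    (mul_mem (mul_mem (ofNat_mem _ _) (sub_mem (ofNat_mem _ _) hu))
      (add_mem (ofNat_mem _ _) hv))) (pow_mem (add_mem (ofNat_mem _ _) hv) 2)

theorem b2_mem (s : IntermediateField k (LaurentSeries k)) {u v : LaurentSeries k} (hu : u ∈ s)
    (hv : v ∈ s) : b2 k u v ∈ s := by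
  unfold b2
  exact sub_mem (mul_mem (ofNat_mem _ _) (sub_mem (mul_mem (ofNat_mem _ _)
    (sub_mem (ofNat_mem _ _) hu)) (add_mem (ofNat_mem _ _) hv)))
    (mul_mem (ofNat_mem _ _) (pow_mem (sub_mem (ofNat_mem _ _) hu) 2))

variable {k} in
/-- `h₂ ∈ k(j, j(q²))`. -/
theorem h2_mem (h2ne : (2 : k) ≠ 0) : h2 k ∈ modularFunctionFieldFullC k 2 := by
  have ha := a2_ne_zero h2ne
  have hx : h2 k = b2 k (jqModC k) (jqNModC k 2) / a2 k (jqModC k) (jqNModC k 2) := by
    rw [eq_div_iff ha, mul_comm]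
    exact a2_mul_h2 k
  have hj : jqModC k ∈ modularFunctionFieldFullC k 2 := jqModC_mem_full k 2
  have hj2 : jqNModC k 2 ∈ modularFunctionFieldFullC k 2 := jqModCd_mem_full k 2 dvd_rfl
  rw [hx]
  exact div_mem (b2_mem k _ hj hj2) (a2_mem k _ hj hj2)

variable {k} in
theorem t4_mem (h2ne : (2 : k) ≠ 0) : t4 k ∈ modularFunctionFieldFullC k 4 := by
  have hx : h2 k ∈ modularFunctionFieldFullC k 4 :=
    full_degeneracyC_le k (N := 2) (M := 4) (by norm_num) (h2_mem h2ne)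
  have hy : y4 k ∈ modularFunctionFieldFullC k 4 := by
    have h0 : qExpandAlgHomC k 2 (h2 k) ∈
        (modularFunctionFieldFullC k 2).map (qExpandAlgHomC k 2) :=
      (IntermediateField.map_mem_map _ _).mpr (h2_mem h2ne)
    exact full_degeneracyC_map_le k 2 2 h0
  unfold t4
  exact div_mem (mul_mem hy (add_mem hx (ofNat_mem _ _))) (add_mem hy (ofNat_mem _ _))

variable {k} in
/-- `k(t₄) = k(j, j(q²), j(q⁴))`. -/
theorem adjoin_t4 (h2ne : (2 : k) ≠ 0) :
    IntermediateField.adjoin k {t4 k} = modularFunctionFieldFullC k 4 := by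
  apply le_antisymm
  · rw [IntermediateField.adjoin_le_iff]
    exact Set.singleton_subset_iff.mpr (t4_mem h2ne)
  · rw [modularFunctionFieldFullC, IntermediateField.adjoin_le_iff]
    have ht : t4 k ∈ IntermediateField.adjoin k {t4 k} :=
      IntermediateField.subset_adjoin k _ (Set.mem_singleton _)
    have h16 : t4 k + 16 ∈ IntermediateField.adjoin k {t4 k} := add_mem ht (ofNat_mem _ _)
    rintro x ⟨d, hne, hdvd, rfl⟩
    have hd : d = 1 ∨ d = 2 ∨ d = 4 := by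
      have hle : d ≤ 4 := Nat.le_of_dvd (by norm_num) hdvd
      interval_cases d <;> simp_all
    rcases hd with rfl | rfl | rfl
    · have e : qExpand k 1 (jqModC k) =
          (t4 k ^ 2 + 256 * t4 k + 4096) ^ 3 / (t4 k ^ 4 * (t4 k + 16)) := by
        rw [qExpand_one_apply, eq_div_iff (mul_ne_zero (pow_ne_zero 4 (t4_ne_zero k))
          (t4_add_ne_zero k))]
        exact t4_rel_one k
      rw [SetLike.mem_coe, e]
      exact div_mem (pow_mem (add_mem (add_mem (pow_mem ht 2) (mul_mem (ofNat_mem _ _) ht))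
        (ofNat_mem _ _)) 3) (mul_mem (pow_mem ht 4) h16)
    · have e : qExpand k 2 (jqModC k) =
          (t4 k ^ 2 + 16 * t4 k + 256) ^ 3 / (t4 k ^ 2 * (t4 k + 16) ^ 2) := by
        rw [eq_div_iff (mul_ne_zero (pow_ne_zero 2 (t4_ne_zero k))
          (pow_ne_zero 2 (t4_add_ne_zero k)))]
        exact t4_rel_two k
      rw [SetLike.mem_coe, e]
      exact div_mem (pow_mem (add_mem (add_mem (pow_mem ht 2) (mul_mem (ofNat_mem _ _) ht))
        (ofNat_mem _ _)) 3) (mul_mem (pow_mem ht 2) (pow_mem h16 2))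
    · have e : qExpand k 4 (jqModC k) =
          (t4 k ^ 2 + 16 * t4 k + 16) ^ 3 / (t4 k * (t4 k + 16)) := by
        rw [eq_div_iff (mul_ne_zero (t4_ne_zero k) (t4_add_ne_zero k))]
        exact t4_rel_four k
      rw [SetLike.mem_coe, e]
      exact div_mem (pow_mem (add_mem (add_mem (pow_mem ht 2) (mul_mem (ofNat_mem _ _) ht))
        (ofNat_mem _ _)) 3) (mul_mem ht h16)

/-- **[Aux0], level 4**: an explicit Hauptmodul of `k(j, j(q²), j(q⁴))` for `2 ≠ 0` in `k`. -/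
theorem aux0_four (k : Type*) [Field k] (h2ne : (2 : k) ≠ 0) :
    ∃ t : LaurentSeries k, t.orderTop = ((-1 : ℤ) : WithTop ℤ) ∧ t.leadingCoeff = 1 ∧
      IntermediateField.adjoin k {t} = ModularCurve.modularFunctionFieldFullC k 4 ∧
      ModularCurve.jqModC k * (t ^ 4 * (t + 16)) = (t ^ 2 + 256 * t + 4096) ^ 3 :=
  ⟨t4 k, (lead_t4 k).orderTop_eq one_ne_zero, (lead_t4 k).leadingCoeff_eq one_ne_zero,
    adjoin_t4 h2ne, t4_rel_one k⟩

end

end Fermat.Agent.S18.Haupt
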