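import Mathlib
import Fermat.Agent.S18.Haupt.Level4

set_option autoImplicit false

/-!
# `j` as a rational function of the Hauptmodul of level 4

`j = num4(t₄) / den4(t₄)` with `num4 = (X² + 256 X + 4096)³`, `den4 = X⁴ (X + 16)`:
coprime (if `2 ≠ 0`), of degrees `6` and `5`; `den4` splits and has the two roots `0`, `-16`.
-/

namespace Fermat.Agent.S18.Haupt

open ModularCurve Polynomial

noncomputable section

variable (k : Type*) [Field k]

/-- a unit is coprime to everything. -/
theorem isCoprime_unit_left {R : Type*} [CommRing R] {x : R} (h : IsUnit x) (y : R) :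
    IsCoprime x y := by
  obtain ⟨u, rfl⟩ := h
  exact ⟨((u⁻¹ : Rˣ) : R), 0, by simp⟩

variable {k} in
/-- a nonzero numeral is a unit of `k[X]`. -/
theorem isUnit_ofNat_poly (n : ℕ) [n.AtLeastTwo] (h : (OfNat.ofNat n : k) ≠ 0) :
    IsUnit (OfNat.ofNat n : k[X]) := by
  have e : (OfNat.ofNat n : k[X]) = C (OfNat.ofNat n : k) := (map_ofNat C n).symm
  rw [e]
  exact isUnit_C.mpr (IsUnit.mk0 _ h)

/-- numerator of `j` as a rational function of `t₄`. -/
def num4 : k[X] := (X ^ 2 + 256 * X + 4096) ^ 3

/-- denominator of `j` as a rational function of `t₄`. -/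
def den4 : k[X] := X ^ 4 * (X + 16)

theorem aeval_num4 {A : Type*} [CommRing A] [Algebra k A] (t : A) :
    aeval t (num4 k) = (t ^ 2 + 256 * t + 4096) ^ 3 := by
  simp only [num4, map_pow, map_add, map_mul, aeval_X, map_ofNat]

theorem aeval_den4 {A : Type*} [CommRing A] [Algebra k A] (t : A) :
    aeval t (den4 k) = t ^ 4 * (t + 16) := by
  simp only [den4, map_pow, map_add, map_mul, aeval_X, map_ofNat]

/-- `j · den4(t₄) = num4(t₄)`. -/
theorem jq_mul_aeval_den4 :
    jqModC k * aeval (t4 k) (den4 k) = aeval (t4 k) (num4 k) := by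
  rw [aeval_num4, aeval_den4]
  exact t4_rel_one k

theorem monic_num4 : (num4 k).Monic := by
  unfold num4
  monicity!

theorem natDegree_num4 : (num4 k).natDegree = 6 := by
  unfold num4
  compute_degree!

theorem monic_den4 : (den4 k).Monic := by
  unfold den4
  monicity!

theorem natDegree_den4 : (den4 k).natDegree = 5 := by
  unfold den4
  compute_degree!

theorem natDegree_den4_lt : (den4 k).natDegree < (num4 k).natDegree := by
  rw [natDegree_den4, natDegree_num4]
  norm_num

theorem den4_ne_zero : den4 k ≠ 0 := (monic_den4 k).ne_zero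

variable {k} in
theorem isCoprime_num4_den4 (h2ne : (2 : k) ≠ 0) : IsCoprime (num4 k) (den4 k) := by
  have h4096 : (4096 : k) ≠ 0 := by
    have e : (4096 : k) = 2 ^ 12 := by norm_num
    rw [e]
    exact pow_ne_zero _ h2ne
  have h256 : (256 : k) ≠ 0 := by
    have e : (256 : k) = 2 ^ 8 := by norm_num
    rw [e]
    exact pow_ne_zero _ h2ne
  have h1 : IsCoprime (X ^ 2 + 256 * X + 4096 : k[X]) X := by
    have e : (X ^ 2 + 256 * X + 4096 : k[X]) = 4096 + X * (X + 256) := by ring
    rw [e]
    exact (isCoprime_unit_left (isUnit_ofNat_poly 4096 h4096) _).add_mul_left_left _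
  have h2 : IsCoprime (X ^ 2 + 256 * X + 4096 : k[X]) (X + 16) := by
    have e : (X ^ 2 + 256 * X + 4096 : k[X]) = 256 + (X + 16) * (X + 240) := by ring
    rw [e]
    exact (isCoprime_unit_left (isUnit_ofNat_poly 256 h256) _).add_mul_left_left _
  exact (IsCoprime.mul_right h1.pow_right h2).pow_left

theorem splits_den4 : (den4 k).Splits := by
  unfold den4
  have e : (X + 16 : k[X]) = X + C 16 := by simp only [map_ofNat]
  rw [e]
  exact (Splits.X_pow 4).mul (Splits.X_add_C _)

theorem roots_den4 : (den4 k).roots = 4 • ({0} : Multiset k) + {-16} := by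
  have h := den4_ne_zero k
  unfold den4 at h ⊢
  have e : (X + 16 : k[X]) = X + C 16 := by simp only [map_ofNat]
  rw [e] at h ⊢
  rw [roots_mul h, roots_X_pow, roots_X_add_C]

variable {k} in
/-- `den4` has exactly two distinct roots (`0` and `-16`) if `2 ≠ 0`. -/
theorem card_roots_den4 [DecidableEq k] (h2ne : (2 : k) ≠ 0) :
    (den4 k).roots.toFinset.card = 2 := by
  have h16 : (16 : k) ≠ 0 := by
    have e : (16 : k) = 2 ^ 4 := by norm_num
    rw [e]
    exact pow_ne_zero _ h2ne
  have e : (den4 k).roots.toFinset = {0, -16} := by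
    ext a
    rw [roots_den4]
    simp
  rw [e, Finset.card_pair]
  exact fun h => h16 (neg_eq_zero.mp h.symm)

end

end Fermat.Agent.S18.Haupt
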