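import Mathlib
import Fermat.Agent.S18.Haupt.Level9
import Fermat.Agent.S18.Haupt.Poly4

set_option autoImplicit false

/-!
# `j` as a rational function of the Hauptmodul of level 9

`j = num9(t₉) / den9(t₉)` with `num9 = (X + 9)³ (X³ + 243 X² + 2187 X + 6561)³`,
`den9 = X⁹ (X² + 9 X + 27)`: coprime (if `3 ≠ 0`), of degrees `12` and `11`; over an
algebraically closed field with `3 ≠ 0`, `den9` has exactly three distinct roots.
-/

namespace Fermat.Agent.S18.Haupt

open ModularCurve Polynomial

noncomputable section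

variable (k : Type*) [Field k]

/-- a unit linear combination gives coprimality. -/
theorem isCoprime_of_comb_isUnit {R : Type*} [CommRing R] {x y a b u : R} (hu : IsUnit u)
    (h : a * x + b * y = u) : IsCoprime x y := by
  obtain ⟨v, rfl⟩ := hu
  refine ⟨((v⁻¹ : Rˣ) : R) * a, ((v⁻¹ : Rˣ) : R) * b, ?_⟩
  rw [mul_assoc, mul_assoc, ← mul_add, h, Units.inv_mul]

/-- numerator of `j` as a rational function of `t₉`. -/
def num9 : k[X] := (X + 9) ^ 3 * (X ^ 3 + 243 * X ^ 2 + 2187 * X + 6561) ^ 3

/-- denominator of `j` as a rational function of `t₉`. -/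
def den9 : k[X] := X ^ 9 * (X ^ 2 + 9 * X + 27)

theorem aeval_num9 {A : Type*} [CommRing A] [Algebra k A] (t : A) :
    aeval t (num9 k) = (t + 9) ^ 3 * (t ^ 3 + 243 * t ^ 2 + 2187 * t + 6561) ^ 3 := by
  simp only [num9, map_pow, map_add, map_mul, aeval_X, map_ofNat]

theorem aeval_den9 {A : Type*} [CommRing A] [Algebra k A] (t : A) :
    aeval t (den9 k) = t ^ 9 * (t ^ 2 + 9 * t + 27) := by
  simp only [den9, map_pow, map_add, map_mul, aeval_X, map_ofNat]

/-- `j · den9(t₉) = num9(t₉)`. -/
theorem jq_mul_aeval_den9 :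
    jqModC k * aeval (t9 k) (den9 k) = aeval (t9 k) (num9 k) := by
  rw [aeval_num9, aeval_den9]
  exact t9_rel_one k

theorem monic_num9 : (num9 k).Monic := by
  unfold num9
  monicity!

theorem natDegree_num9 : (num9 k).natDegree = 12 := by
  unfold num9
  compute_degree!

theorem monic_den9 : (den9 k).Monic := by
  unfold den9
  monicity!

theorem natDegree_den9 : (den9 k).natDegree = 11 := by
  unfold den9
  compute_degree!

theorem natDegree_den9_lt : (den9 k).natDegree < (num9 k).natDegree := by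
  rw [natDegree_den9, natDegree_num9]
  norm_num

theorem den9_ne_zero : den9 k ≠ 0 := (monic_den9 k).ne_zero

variable {k} in
theorem isCoprime_num9_den9 (h3ne : (3 : k) ≠ 0) : IsCoprime (num9 k) (den9 k) := by
  have h9 : (9 : k) ≠ 0 := by
    have e : (9 : k) = 3 ^ 2 := by norm_num
    rw [e]; exact pow_ne_zero _ h3ne
  have h27 : (27 : k) ≠ 0 := by
    have e : (27 : k) = 3 ^ 3 := by norm_num
    rw [e]; exact pow_ne_zero _ h3ne
  have h6561 : (6561 : k) ≠ 0 := by
    have e : (6561 : k) = 3 ^ 8 := by norm_num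
    rw [e]; exact pow_ne_zero _ h3ne
  have h19683 : (19683 : k) ≠ 0 := by
    have e : (19683 : k) = 3 ^ 9 := by norm_num
    rw [e]; exact pow_ne_zero _ h3ne
  have h1 : IsCoprime (X + 9 : k[X]) X := by
    have e : (X + 9 : k[X]) = 9 + X * 1 := by ring
    rw [e]
    exact (isCoprime_unit_left (isUnit_ofNat_poly 9 h9) _).add_mul_left_left _
  have h2 : IsCoprime (X + 9 : k[X]) (X ^ 2 + 9 * X + 27) := by
    have e : (X ^ 2 + 9 * X + 27 : k[X]) = 27 + (X + 9) * X := by ring
    rw [e]
    exact ((isCoprime_unit_left (isUnit_ofNat_poly 27 h27) _).add_mul_left_left _).symm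
  have h3 : IsCoprime (X ^ 3 + 243 * X ^ 2 + 2187 * X + 6561 : k[X]) X := by
    have e : (X ^ 3 + 243 * X ^ 2 + 2187 * X + 6561 : k[X]) =
        6561 + X * (X ^ 2 + 243 * X + 2187) := by ring
    rw [e]
    exact (isCoprime_unit_left (isUnit_ofNat_poly 6561 h6561) _).add_mul_left_left _
  have h4 : IsCoprime (X ^ 3 + 243 * X ^ 2 + 2187 * X + 6561 : k[X]) (X ^ 2 + 9 * X + 27) := by
    refine isCoprime_of_comb_isUnit (isUnit_ofNat_poly 19683 h19683)
      (a := -(54 * X + 243)) (b := 2916 + (X + 234) * (54 * X + 243)) ?_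
    ring
  exact IsCoprime.mul_left (IsCoprime.mul_right h1.pow_right h2).pow_left
    (IsCoprime.mul_right h3.pow_right h4).pow_left

theorem splits_den9 [IsAlgClosed k] : (den9 k).Splits := IsAlgClosed.splits _

variable {k} in
/-- factorisation of the quadratic factor, given one root. -/
theorem quad9_factor {ω : k} (hω : ω ^ 2 + 9 * ω + 27 = 0) :
    (X ^ 2 + 9 * X + 27 : k[X]) = (X - C ω) * (X - C (-9 - ω)) := by
  have h27 : (27 : k) = ω * (-9 - ω) := by linear_combination hω
  have e : (27 : k[X]) = C ω * C (-9 - ω) := by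
    rw [← C_mul, ← h27, map_ofNat]
  rw [e]
  simp only [map_sub, map_neg, map_ofNat]
  ring

variable {k} in
theorem roots_den9 {ω : k} (hω : ω ^ 2 + 9 * ω + 27 = 0) :
    (den9 k).roots = 9 • ({0} : Multiset k) + ({ω} + {-9 - ω}) := by
  have h := den9_ne_zero k
  unfold den9 at h ⊢
  rw [quad9_factor hω] at h ⊢
  rw [roots_mul h, roots_X_pow, roots_mul (right_ne_zero_of_mul h), roots_X_sub_C,
    roots_X_sub_C]

variable {k} in
/-- `den9` has exactly three distinct roots if `3 ≠ 0` and `X² + 9 X + 27` has a root. -/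
theorem card_roots_den9_of_root [DecidableEq k] (h3ne : (3 : k) ≠ 0) {ω : k}
    (hω : ω ^ 2 + 9 * ω + 27 = 0) : (den9 k).roots.toFinset.card = 3 := by
  have h27 : (27 : k) ≠ 0 := by
    have e : (27 : k) = 3 ^ 3 := by norm_num
    rw [e]; exact pow_ne_zero _ h3ne
  have e : (den9 k).roots.toFinset = {0, ω, -9 - ω} := by
    ext a
    rw [roots_den9 hω]
    have h9 : (9 : ℕ) ≠ 0 := by norm_num
    simp only [Multiset.mem_toFinset, Multiset.mem_add, Multiset.mem_nsmul,
      Multiset.mem_singleton, Finset.mem_insert, Finset.mem_singleton]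
    tauto
  have hω0 : ω ≠ 0 := by
    rintro rfl
    exact h27 (by linear_combination hω)
  have hω'0 : -9 - ω ≠ 0 := by
    intro h
    exact h27 (by linear_combination hω + (ω + 0) * h)
  have hne : ω ≠ -9 - ω := by
    intro h
    have h' : 2 * ω + 9 = 0 := by linear_combination h
    exact h27 (by linear_combination 4 * hω - (2 * ω + 9) * h')
  rw [e, Finset.card_insert_of_notMem, Finset.card_pair hne]
  simp only [Finset.mem_insert, Finset.mem_singleton, not_or]
  exact ⟨hω0.symm, hω'0.symm⟩

variable {k} in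
/-- `den9` has exactly three distinct roots over an algebraically closed field with `3 ≠ 0`. -/
theorem card_roots_den9 [IsAlgClosed k] [DecidableEq k] (h3ne : (3 : k) ≠ 0) :
    (den9 k).roots.toFinset.card = 3 := by
  have hdeg : (X ^ 2 + 9 * X + 27 : k[X]).degree ≠ 0 := by
    have h2 : (X ^ 2 + 9 * X + 27 : k[X]).natDegree = 2 := by compute_degree!
    intro h0
    rw [natDegree, h0] at h2
    simp at h2
  obtain ⟨ω, hω⟩ := IsAlgClosed.exists_root (X ^ 2 + 9 * X + 27 : k[X]) hdeg
  refine card_roots_den9_of_root h3ne (ω := ω) ?_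
  have h := hω
  simp only [IsRoot, eval_add, eval_mul, eval_pow, eval_X, eval_ofNat] at h
  exact h

end

end Fermat.Agent.S18.Haupt
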