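import Mathlib
import Fermat.Agent.S18.Haupt.Poly4
import Fermat.Agent.S18.Haupt.Poly9
import Fermat.Agent.S28.AbstractIrred

set_option autoImplicit false

/-!
# The Hauptmoduln of level 4 and 9 inside the function fields of higher level

Transcendence of `t₄`, `t₉` over the constants, and the relation `j · Den(t) = Num(t)` for the
elements `⟨t, _⟩` of an intermediate field `L ⊆ k((q))` containing `t` and `j`, in particular for
`L = modularFunctionFieldFullC k n` with `4 ∣ n` resp. `9 ∣ n`.
-/

namespace Fermat.Agent.S18.Haupt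

open ModularCurve Polynomial

noncomputable section

variable {k : Type*} [Field k]

theorem Lead.order_eq {f : LaurentSeries k} {n : ℤ} {c : k} (hf : Lead f n c) (hc : c ≠ 0) :
    f.order = n := by
  have h0 := hf.ne_zero hc
  have h1 := hf.orderTop_eq hc
  have h3 := HahnSeries.order_eq_orderTop_of_ne_zero h0
  rw [h1] at h3
  exact_mod_cast h3

/-- a Laurent series with a pole is transcendental over the constants. -/
theorem Lead.transcendental {f : LaurentSeries k} {n : ℤ} {c : k} (hf : Lead f n c) (hc : c ≠ 0)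
    (hn : n < 0) : Transcendental k f :=
  Fermat.Agent.S28.AbstractIrred.transcendental_of_order_neg f (by rw [hf.order_eq hc]; exact hn)

variable (k) in
theorem transcendental_t4 : Transcendental k (t4 k) :=
  (lead_t4 k).transcendental one_ne_zero (by norm_num)

variable (k) in
theorem transcendental_t9 : Transcendental k (t9 k) :=
  (lead_t9 k).transcendental one_ne_zero (by norm_num)

variable (k) in
theorem order_t4 : (t4 k).order = -1 := (lead_t4 k).order_eq one_ne_zero

variable (k) in
theorem order_t9 : (t9 k).order = -1 := (lead_t9 k).order_eq one_ne_zero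

section Sub

variable (L : IntermediateField k (LaurentSeries k))

theorem coe_aeval_sub {t : LaurentSeries k} (ht : t ∈ L) (p : k[X]) :
    ((aeval (⟨t, ht⟩ : L) p : L) : LaurentSeries k) = aeval t p :=
  (Polynomial.aeval_algHom_apply L.val (⟨t, ht⟩ : L) p).symm

/-- transport of `j · Den(t) = Num(t)` into an intermediate field containing `t` and `j`. -/
theorem rel_sub {t j : LaurentSeries k} (ht : t ∈ L) (hj : j ∈ L) {Num Den : k[X]}
    (h : j * aeval t Den = aeval t Num) :
    (⟨j, hj⟩ : L) * aeval (⟨t, ht⟩ : L) Den = aeval (⟨t, ht⟩ : L) Num := by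
  apply Subtype.ext
  rw [MulMemClass.coe_mul, coe_aeval_sub, coe_aeval_sub]
  exact h

theorem transcendental_sub {t : LaurentSeries k} (ht : t ∈ L) (h : Transcendental k t) :
    Transcendental k (⟨t, ht⟩ : L) := fun halg =>
  h (halg.algHom L.val)

end Sub

section Level

variable (k) (n : ℕ) [NeZero n]

/-- `t₄` as an element of the function field of level `n`, `4 ∣ n` (`2 ≠ 0` in `k`). -/
def t4In (h4 : 4 ∣ n) (h2ne : (2 : k) ≠ 0) : ↥(modularFunctionFieldFullC k n) :=
  ⟨t4 k, full_degeneracyC_le k h4 (t4_mem h2ne)⟩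

/-- `t₉` as an element of the function field of level `n`, `9 ∣ n` (`3 ≠ 0` in `k`). -/
def t9In (h9 : 9 ∣ n) (h3ne : (3 : k) ≠ 0) : ↥(modularFunctionFieldFullC k n) :=
  ⟨t9 k, full_degeneracyC_le k h9 (t9_mem h3ne)⟩

@[simp]
theorem coe_t4In (h4 : 4 ∣ n) (h2ne : (2 : k) ≠ 0) :
    ((t4In k n h4 h2ne : ↥(modularFunctionFieldFullC k n)) : LaurentSeries k) = t4 k := rfl

@[simp]
theorem coe_t9In (h9 : 9 ∣ n) (h3ne : (3 : k) ≠ 0) :
    ((t9In k n h9 h3ne : ↥(modularFunctionFieldFullC k n)) : LaurentSeries k) = t9 k := rfl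

/-- `j · den4(t₄) = num4(t₄)` in the function field of level `n`, `4 ∣ n`. -/
theorem jk_mul_aeval_t4In (h4 : 4 ∣ n) (h2ne : (2 : k) ≠ 0) :
    (⟨jqModC k, jqModC_mem_full k n⟩ : ↥(modularFunctionFieldFullC k n)) *
      aeval (t4In k n h4 h2ne) (den4 k) = aeval (t4In k n h4 h2ne) (num4 k) :=
  rel_sub _ _ _ (jq_mul_aeval_den4 k)

/-- `j · den9(t₉) = num9(t₉)` in the function field of level `n`, `9 ∣ n`. -/
theorem jk_mul_aeval_t9In (h9 : 9 ∣ n) (h3ne : (3 : k) ≠ 0) :
    (⟨jqModC k, jqModC_mem_full k n⟩ : ↥(modularFunctionFieldFullC k n)) *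
      aeval (t9In k n h9 h3ne) (den9 k) = aeval (t9In k n h9 h3ne) (num9 k) :=
  rel_sub _ _ _ (jq_mul_aeval_den9 k)

theorem transcendental_t4In (h4 : 4 ∣ n) (h2ne : (2 : k) ≠ 0) :
    Transcendental k (t4In k n h4 h2ne) :=
  transcendental_sub _ _ (transcendental_t4 k)

theorem transcendental_t9In (h9 : 9 ∣ n) (h3ne : (3 : k) ≠ 0) :
    Transcendental k (t9In k n h9 h3ne) :=
  transcendental_sub _ _ (transcendental_t9 k)

end Level

end

end Fermat.Agent.S18.Haupt
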